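import Fermat.Agent.ExtVanishing.Places
import Mathlib.NumberTheory.NumberField.ExistsRamified
import Mathlib.FieldTheory.Galois.IsGaloisGroup

/-!
# `ℚ` has no nontrivial unramified extension

Inertia elements of number fields lift to inertia groups of places of `ℚ̄`, and an open subgroup
of the absolute Galois group of `ℚ` containing all inertia groups is everything
(`eq_top_of_inertia_le`).
-/

set_option autoImplicit false

noncomputable section

open scoped Pointwise NumberField

namespace FLTAgent.ECReduction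

open FLTAgent.Density

/-- Inertia elements of a number field lift to the inertia group of a place of `ℚbar`. -/
theorem exists_inertia_lift_of_mem (L : IntermediateField ℚ Qbar) [FiniteDimensional ℚ L]
    [IsGalois ℚ L] (P : Ideal (𝓞 L)) [P.IsPrime] {q : ℕ} (hq : q.Prime) (hqP : (q : 𝓞 L) ∈ P)
    {τ : L ≃ₐ[ℚ] L} (hτ : τ ∈ P.inertia (L ≃ₐ[ℚ] L)) :
    ∃ A : ValuationSubring Qbar, A.LiesOverPrime q ∧
      ∃ σ ∈ A.inertiaSubgroupIn ℚ, ∀ y : L, σ (y : Qbar) = ((τ y : L) : Qbar) := by
  obtain ⟨A, hA, hP⟩ := ExtVanishing.exists_place_over L hq P hqP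
  exact ⟨A, hA, ExtVanishing.exists_inertia_lift hq hA hP hτ⟩

/-- If every element of a finite Galois extension of `ℚ` is fixed by every inertia group, then
the extension is trivial. -/
theorem eq_bot_of_forall_inertia_fixes (L : IntermediateField ℚ Qbar) [FiniteDimensional ℚ L]
    [IsGalois ℚ L]
    (h : ∀ q : ℕ, q.Prime → ∀ A : ValuationSubring Qbar, A.LiesOverPrime q →
      ∀ σ ∈ A.inertiaSubgroupIn ℚ, ∀ x ∈ L, σ x = x) : L = ⊥ := by
  by_contra hL
  have : NumberField L := { }
  have hrk : Module.finrank ℚ L ≠ 1 := fun h1 => hL (IntermediateField.finrank_eq_one_iff.1 h1)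
  obtain ⟨P, hPmax, hP⟩ := NumberField.exists_not_isUnramifiedAt_int (𝒪 := 𝓞 L) hrk
  have := hPmax
  -- a nontrivial element `τ` of the inertia group of `P`
  obtain ⟨τ, hτ, hτ1⟩ : ∃ τ : L ≃ₐ[ℚ] L, τ ∈ P.inertia (L ≃ₐ[ℚ] L) ∧ τ ≠ 1 := by
    by_contra hc
    push Not at hc
    have hP0 : P ≠ ⊥ := Ideal.IsMaximal.ne_bot_of_isIntegral_int P
    have : (P.under ℤ).IsMaximal := Ideal.isMaximal_comap_of_isIntegral_of_isMaximal P
    have : Finite (ℤ ⧸ P.under ℤ) :=
      Ideal.finiteQuotientOfFreeOfNeBot _ fun h0 => hP0 (Ideal.eq_bot_of_comap_eq_bot h0)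
    have : PerfectField (P.under ℤ).ResidueField := PerfectField.ofFinite
    have hcard : Nat.card (P.inertia (L ≃ₐ[ℚ] L)) = 1 := by
      rw [(Subgroup.eq_bot_iff_forall _).2 hc, Subgroup.card_bot]
    rw [Ideal.card_inertia_eq_ramificationIdxIn (G := L ≃ₐ[ℚ] L) (P.under ℤ) P,
      Ideal.ramificationIdxIn_eq_ramificationIdx (P.under ℤ) P (L ≃ₐ[ℚ] L),
      Ideal.ramificationIdx_eq_one_iff] at hcard
    exact hP hcard
  -- the residue characteristic
  obtain ⟨q, hq, hqP⟩ : ∃ q : ℕ, q.Prime ∧ (q : 𝓞 L) ∈ P := by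
    have hP0 : P ≠ ⊥ := Ideal.IsMaximal.ne_bot_of_isIntegral_int P
    obtain ⟨n, hn⟩ := IsPrincipalIdealRing.principal (P.under ℤ)
    have hn0 : n ≠ 0 := fun h0 =>
      hP0 (Ideal.eq_bot_of_comap_eq_bot (by rw [← Ideal.under_def, hn, h0]; simp))
    have hp : Prime n := by
      rw [← Ideal.span_singleton_prime hn0]
      rw [show Ideal.span {n} = P.under ℤ from hn.symm]
      infer_instance
    refine ⟨n.natAbs, Int.prime_iff_natAbs_prime.1 hp, ?_⟩
    have hmem : n ∈ P.under ℤ := by rw [hn]; exact Submodule.mem_span_singleton_self n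
    rw [Ideal.under_def, Ideal.mem_comap] at hmem
    rcases Int.natAbs_eq n with h | h <;> rw [h] at hmem <;> simpa using hmem
  obtain ⟨A, hA, σ, hσA, hσ⟩ := exists_inertia_lift_of_mem L P hq hqP hτ
  -- `σ` restricts to `τ ≠ 1` on `L`
  exact hτ1 (AlgEquiv.ext fun y => Subtype.ext ((hσ y).symm.trans (h q hq A hA σ hσA _ y.2)))

/-- An open subgroup of `Gal(ℚbar/ℚ)` containing all inertia groups is the whole group. -/
theorem eq_top_of_inertia_le (H : Subgroup GalQ) (hH : IsOpen (H : Set GalQ))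
    (h : ∀ q : ℕ, q.Prime → ∀ A : ValuationSubring Qbar, A.LiesOverPrime q →
      A.inertiaSubgroupIn ℚ ≤ H) : H = ⊤ := by
  let F := IntermediateField.fixedField H
  have hFH : F.fixingSubgroup = H :=
    InfiniteGalois.fixingSubgroup_fixedField ⟨H, H.isClosed_of_isOpen hH⟩
  have : FiniteDimensional ℚ F := (InfiniteGalois.isOpen_iff_finite F).1 (by rw [hFH]; exact hH)
  let L := IntermediateField.normalClosure ℚ F Qbar
  have : FiniteDimensional ℚ L := normalClosure.is_finiteDimensional ℚ F Qbar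
  have : IsGalois ℚ L := IsGalois.normalClosure ℚ F Qbar
  have hL : L = ⊥ := by
    refine eq_bot_of_forall_inertia_fixes L fun q hq A hA σ hσ x hx => ?_
    let S : Subgroup GalQ := Subgroup.closure {g | g = σ}
    suffices h' : L ≤ IntermediateField.fixedField S from
      (IntermediateField.mem_fixedField_iff _ _).1 (h' hx) σ (Subgroup.subset_closure rfl)
    rw [show L = ⨆ f : F →ₐ[ℚ] Qbar, f.fieldRange from normalClosure_def ..]
    refine iSup_le fun f => ?_
    rintro _ ⟨y, rfl⟩
    rw [IntermediateField.mem_fixedField_iff]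
    intro g hg
    induction hg using Subgroup.closure_induction with
    | one => rfl
    | mul a b _ _ ha hb => rw [AlgEquiv.mul_apply, hb, ha]
    | inv a _ ha =>
      exact a.injective (by rw [← AlgEquiv.mul_apply, mul_inv_cancel, AlgEquiv.one_apply, ha])
    | mem g hg =>
      rw [show g = σ from hg]
      obtain ⟨ρ, hρ⟩ : ∃ ρ : GalQ, ∀ z : F, ρ (z : Qbar) = f z := by
        refine ⟨AlgEquiv.ofBijective (f.liftNormal Qbar)
          (AlgHom.normal_bijective ℚ Qbar Qbar _), fun z => ?_⟩
        exact f.liftNormal_commutes Qbar z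
      change σ (f y) = f y
      rw [← hρ]
      have hmem := h q hq _ (smul_liesOverPrime ρ⁻¹ hA) (by
        simpa using mem_inertiaSubgroupIn_smul hσ ρ⁻¹)
      have hy := (IntermediateField.mem_fixedField_iff _ _).1 y.2 _ hmem
      have := congrArg ρ hy
      simpa [← AlgEquiv.mul_apply, mul_assoc] using this
  have hF : F = ⊥ := le_bot_iff.1 ((IntermediateField.le_normalClosure F).trans hL.le)
  rw [← hFH, hF, IntermediateField.fixingSubgroup_bot]

end FLTAgent.ECReduction
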