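import Fermat.Agent.ECReduction.Basic

/-!
# Multiplicative reduction: the node

`NodeData` is a zero `(r, t)` of both partial derivatives over the node with a tangent slope, which
puts the equation in the shape `Y (Y + u X) = X ^ 3 + c`.  Singular points fall into the classes
`Plus`, its negative and `Mid` (`trichotomy`); two points of a class differ by an element of `E0`
and the classes add like small integers (`plus_add_plus`).
-/

namespace FLTAgent.ECReduction

open WeierstrassCurve WeierstrassCurve.Affine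

variable {K : Type*} [Field K] (A : ValuationSubring K) (W : WeierstrassCurve K)

local notation "v" => A.valuation

/-- The data of a node: a zero `(r, t)` of both partial derivatives and a tangent slope `s`. -/
structure NodeData where
  r : K
  t : K
  s : K
  hr : v r ≤ 1
  ht : v t ≤ 1
  hs : v s ≤ 1
  eY : dY W r t = 0
  eX : dX W r t = 0
  es : s ^ 2 + W.a₁ * s = W.a₂ + 3 * r
  hu : v (W.a₁ + 2 * s) = 1
  hc : v (r ^ 3 + W.a₂ * r ^ 2 + W.a₄ * r + W.a₆ - t ^ 2 - W.a₁ * r * t - W.a₃ * t) < 1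

variable {A W}

namespace NodeData

variable (nd : NodeData A W)

/-- The difference of the slopes of the tangents at the node. -/
def u : K := W.a₁ + 2 * nd.s

/-- The constant term of the normalised equation. -/
def c : K := nd.r ^ 3 + W.a₂ * nd.r ^ 2 + W.a₄ * nd.r + W.a₆ - nd.t ^ 2 - W.a₁ * nd.r * nd.t
  - W.a₃ * nd.t

/-- The normalised abscissa. -/
def X (x : K) : K := x - nd.r

/-- The normalised ordinate. -/
def Y (x y : K) : K := y - nd.t - nd.s * (x - nd.r)

/-- The difference of the slopes of the tangents at the node is a unit. -/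
theorem val_u : v nd.u = 1 := nd.hu

/-- The constant term at the node has valuation `< 1`. -/
theorem val_c : v nd.c < 1 := nd.hc

theorem val_u_mul (z : K) : v (nd.u * z) = v z := by rw [map_mul, nd.val_u, one_mul]

theorem eq_XY {x y : K} (h : W.toAffine.Equation x y) :
    nd.Y x y * (nd.Y x y + nd.u * nd.X x) = nd.X x ^ 3 + nd.c := by
  rw [equation_iff] at h
  have h1 := nd.eY
  have h2 := nd.eX
  simp only [dY] at h1
  simp only [dX] at h2
  simp only [X, Y, u, c]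
  linear_combination h - (y - nd.t) * h1 - (x - nd.r) * h2 + (x - nd.r) ^ 2 * (-nd.es)

theorem dY_eq (x y : K) : dY W x y = 2 * nd.Y x y + nd.u * nd.X x := by
  have h1 := nd.eY
  simp only [dY] at h1
  simp only [dY, X, Y, u]
  linear_combination h1

theorem dX_eq (x y : K) : dX W x y + nd.s * dY W x y = nd.u * nd.Y x y - 3 * nd.X x ^ 2 := by
  have h1 := nd.eY
  have h2 := nd.eX
  simp only [dY] at h1
  simp only [dX] at h2
  simp only [dX, dY, X, Y, u]
  linear_combination h2 + nd.s * h1 + 2 * (x - nd.r) * nd.es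

theorem negY_eq (x y : K) :
    nd.Y x (W.toAffine.negY x y) = -nd.Y x y - nd.u * nd.X x := by
  have h1 := nd.eY
  simp only [dY] at h1
  simp only [negY, X, Y, u]
  linear_combination -h1

theorem addX_eq (x₁ x₂ l : K) : nd.X (W.toAffine.addX x₁ x₂ l) =
    (l - nd.s) * (l - nd.s + nd.u) - nd.X x₁ - nd.X x₂ := by
  simp only [addX, X, u]
  linear_combination nd.es

theorem resSingular_iff (hW : IntAt A W) {x y : K} (h : W.toAffine.Equation x y) :
    ResSingular A W x y ↔ v (nd.X x) < 1 ∧ v (nd.Y x y) < 1 := by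
  constructor
  · rintro ⟨hx, hy, hX, hY⟩
    have hXle : v (nd.X x) ≤ 1 := val_sub_le A hx nd.hr
    have g1 : v (2 * nd.Y x y + nd.u * nd.X x) < 1 := nd.dY_eq x y ▸ hY
    have g2 : v (nd.u * nd.Y x y - 3 * nd.X x ^ 2) < 1 :=
      nd.dX_eq x y ▸ val_add_lt A hX (val_mul_lt_right A nd.hs hY)
    have hYle : v (nd.Y x y) ≤ 1 :=
      val_sub_le A (val_sub_le A hy nd.ht) (val_mul_le A nd.hs hXle)
    have hXlt : v (nd.X x) < 1 := by
      by_contra hc
      have hX1 : v (nd.X x) = 1 := le_antisymm hXle (not_lt.1 hc)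
      have hu := nd.val_u
      have he := nd.eq_XY h
      have hc := nd.val_c
      generalize nd.X x = X at *
      generalize nd.Y x y = Y at *
      generalize nd.u = U at *
      generalize nd.c = C at *
      have hu1 : v U ≤ 1 := hu.le
      have hp : v (X * (U ^ 2 + 6 * X)) < 1 := by
        rw [show X * (U ^ 2 + 6 * X) = U * (2 * Y + U * X) - 2 * (U * Y - 3 * X ^ 2) by ring]
        exact val_sub_lt A (val_mul_lt_right A hu1 g1) (val_mul_lt_right A (val_ofNat_le A 2) g2)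
      have hq : v (X ^ 3 * (9 * X + 2 * U ^ 2)) < 1 := by
        rw [show X ^ 3 * (9 * X + 2 * U ^ 2)
            = U ^ 2 * C - (U * Y - 3 * X ^ 2) * (U * Y + 3 * X ^ 2 + U ^ 2 * X) by
          linear_combination (U ^ 2) * he]
        exact val_sub_lt A (val_mul_lt_right A (val_pow_le A hu1 2) hc)
          (val_mul_lt_left A g2 (val_add_le A (val_add_le A (val_mul_le A hu1 hYle)
            (val_mul_le A (val_ofNat_le A 3) (val_pow_le A hXle 2)))
            (val_mul_le A (val_pow_le A hu1 2) hXle)))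
      rw [map_mul, hX1, one_mul] at hp
      rw [map_mul, map_pow, hX1, one_pow, one_mul] at hq
      have h3 : v (3 * X) < 1 := by
        rw [show 3 * X = 2 * (U ^ 2 + 6 * X) - (9 * X + 2 * U ^ 2) by ring]
        exact val_sub_lt A (val_mul_lt_right A (val_ofNat_le A 2) hp) hq
      have : v (U ^ 2) < 1 := by
        rw [show U ^ 2 = (U ^ 2 + 6 * X) - 2 * (3 * X) by ring]
        exact val_sub_lt A hp (val_mul_lt_right A (val_ofNat_le A 2) h3)
      rw [map_pow, hu, one_pow] at this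
      exact lt_irrefl _ this
    refine ⟨hXlt, ?_⟩
    rw [← nd.val_u_mul, show nd.u * nd.Y x y
        = (nd.u * nd.Y x y - 3 * nd.X x ^ 2) + 3 * nd.X x * nd.X x by ring]
    exact val_add_lt A g2 (val_mul_lt_right A (val_mul_le A (val_ofNat_le A 3) hXle) hXlt)
  · rintro ⟨hX, hY⟩
    refine resSingular_congr hW ⟨nd.hr, nd.ht, by simp [nd.eX], by simp [nd.eY]⟩ hX ?_
    rw [show y - nd.t = nd.Y x y + nd.s * nd.X x by simp only [X, Y]; ring]
    exact val_add_lt A hY (val_mul_lt_right A nd.hs hX)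

/-- A point over the node, close to the first tangent, with `v X = γ`. -/
def Plus (P : W.toAffine.Point) (γ : A.ValueGroup) : Prop :=
  ∃ x y h, P = .some x y h ∧ γ < 1 ∧ v (nd.X x) = γ ∧ v (nd.Y x y) < γ

/-- A point over the node, not closer to one tangent than to the other. -/
def Mid (P : W.toAffine.Point) : Prop :=
  ∃ x y h, P = .some x y h ∧ v (nd.X x) < 1 ∧ v (nd.Y x y) < 1 ∧ v (nd.X x) ≤ v (nd.Y x y) ∧
    v (nd.X x) ≤ v (nd.Y x y + nd.u * nd.X x)

theorem Plus.not_inE0 (hW : IntAt A W) {P : W.toAffine.Point} {γ : A.ValueGroup}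
    (hP : nd.Plus P γ) : ¬ InE0 A W P := by
  obtain ⟨x, y, h, rfl, hγ, hX, hY⟩ := hP
  rw [inE0_some, not_not, nd.resSingular_iff hW h.1]
  exact ⟨hX ▸ hγ, hY.trans hγ⟩

/-- The classes lie strictly before the middle. -/
theorem Plus.pow_lt {P : W.toAffine.Point} {γ w : A.ValueGroup} (hw : w < 1) {h : ℕ} (hh : 1 ≤ h)
    (hc : v nd.c = w ^ (2 * h)) (hP : nd.Plus P γ) : w ^ h < γ := by
  obtain ⟨x, y, hn, rfl, -, hX, hY⟩ := hP
  by_contra hle
  rw [not_lt] at hle
  have hγ0 : 0 < γ := zero_le.trans_lt hY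
  have hw0 : 0 < w ^ h := hγ0.trans_le hle
  have h3 : v (nd.X x ^ 3) < v nd.c := by
    rw [map_pow, hX, hc]
    calc γ ^ 3 ≤ (w ^ h) ^ 3 := pow_le_pow_left₀ zero_le hle 3
      _ = (w ^ h) ^ 2 * w ^ h := pow_succ _ 2
      _ < (w ^ h) ^ 2 :=
        mul_lt_of_lt_one_right (pow_pos hw0 2) (pow_lt_one₀ zero_le hw (by omega))
      _ = w ^ (2 * h) := by rw [← pow_mul, mul_comm]
  have e := congrArg v (nd.eq_XY hn.1)
  rw [A.valuation.map_add_eq_of_lt_right h3, hc, map_mul] at e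
  have h1 : v (nd.Y x y + nd.u * nd.X x) ≤ γ :=
    A.valuation.map_add_le hY.le (by rw [nd.val_u_mul, hX])
  have h2 : v (nd.Y x y) * v (nd.Y x y + nd.u * nd.X x) < w ^ (2 * h) :=
    calc v (nd.Y x y) * v (nd.Y x y + nd.u * nd.X x) ≤ v (nd.Y x y) * γ := mul_le_mul_right h1 _
      _ < γ * γ := mul_lt_mul_of_pos_right hY hγ0
      _ ≤ w ^ h * w ^ h := mul_le_mul' hle hle
      _ = w ^ (2 * h) := by rw [← pow_add, two_mul]
  exact h2.ne e

/-- A point over the node is on one of the two branches or in the middle. -/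
theorem trichotomy (hW : IntAt A W) {P : W.toAffine.Point} (hP : ¬ InE0 A W P) :
    (∃ γ, nd.Plus P γ) ∨ (∃ γ, nd.Plus (-P) γ) ∨ nd.Mid P := by
  rcases P with _ | ⟨x, y, h⟩
  · exact absurd trivial hP
  rw [inE0_some, not_not, nd.resSingular_iff hW h.1] at hP
  by_cases h1 : v (nd.Y x y) < v (nd.X x)
  · exact .inl ⟨_, x, y, h, rfl, hP.1, rfl, h1⟩
  by_cases h2 : v (nd.Y x y + nd.u * nd.X x) < v (nd.X x)
  · refine .inr (.inl ⟨_, x, _, (nonsingular_neg ..).2 h, Point.neg_some h, hP.1, rfl, ?_⟩)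
    rw [nd.negY_eq, show -nd.Y x y - nd.u * nd.X x = -(nd.Y x y + nd.u * nd.X x) by ring,
      A.valuation.map_neg]
    exact h2
  exact .inr (.inr ⟨x, y, h, rfl, hP.1, hP.2, not_lt.1 h1, not_lt.1 h2⟩)

variable [DecidableEq K]

omit [DecidableEq K] in
theorem inE0_of_one_le (hW : IntAt A W) {x y : K} {h : W.toAffine.Nonsingular x y}
    (hX : 1 ≤ v (nd.X x)) : InE0 A W (.some x y h) :=
  fun hs => not_lt.2 hX ((nd.resSingular_iff hW h.1).1 hs).1

/-- Two points of the same class differ by a point with nonsingular reduction. -/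
theorem Plus.sub_inE0 (hW : IntAt A W) {P Q : W.toAffine.Point} {γ : A.ValueGroup}
    (hP : nd.Plus P γ) (hQ : nd.Plus Q γ) : InE0 A W (P - Q) := by
  obtain ⟨x₁, y₁, h₁, rfl, hγ, hX₁, hY₁⟩ := hP
  obtain ⟨x₂, y₂, h₂, rfl, -, hX₂, hY₂⟩ := hQ
  have hγ0 : γ ≠ 0 := (zero_le.trans_lt hY₁).ne'
  rw [sub_eq_add_neg, Point.neg_some]
  set z := W.toAffine.negY x₂ y₂ with hz
  have hnum : v (nd.Y x₁ y₁ + nd.Y x₂ y₂ + nd.u * nd.X x₂) = γ := by
    rw [A.valuation.map_add_eq_of_lt_right, nd.val_u_mul, hX₂]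
    rw [nd.val_u_mul, hX₂]
    exact A.valuation.map_add_lt hY₁ hY₂
  have hnum' : v (nd.Y x₁ y₁ + nd.Y x₂ y₂ + nd.u * nd.X x₁) = γ := by
    rw [A.valuation.map_add_eq_of_lt_right, nd.val_u_mul, hX₁]
    rw [nd.val_u_mul, hX₁]
    exact A.valuation.map_add_lt hY₁ hY₂
  have hyz : y₁ ≠ z ∨ x₁ ≠ x₂ := by
    by_contra hc
    rw [not_or, not_not, not_not] at hc
    have e : nd.Y x₁ y₁ + nd.Y x₂ y₂ + nd.u * nd.X x₂ = 0 := by
      have := nd.negY_eq x₂ y₂
      rw [← hz, ← hc.1] at this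
      rw [show nd.Y x₁ y₁ = nd.Y x₂ y₁ by rw [hc.2], this]; ring
    rw [e, A.valuation.map_zero] at hnum
    exact hγ0 hnum.symm
  by_cases hxy : x₁ = x₂ ∧ y₁ = W.toAffine.negY x₂ z
  · rw [Point.add_of_Y_eq hxy.1 hxy.2]; exact inE0_zero
  rw [Point.add_some hxy]
  have hx : x₁ ≠ x₂ := by
    intro hx
    rcases Y_eq_of_X_eq h₁.1 ((equation_neg ..).2 h₂.1) hx with h | h
    · exact hyz.elim (fun hh => hh h) (fun hh => hh hx)
    · exact hxy ⟨hx, h⟩
  apply nd.inE0_of_one_le hW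
  rw [nd.addX_eq, slope_of_X_ne hx]
  set L := (y₁ - z) / (x₁ - x₂) - nd.s with hL
  have hne : nd.X x₁ - nd.X x₂ ≠ 0 := by
    simp only [X, sub_sub_sub_cancel_right]; exact sub_ne_zero.2 hx
  have e1 : L * (nd.X x₁ - nd.X x₂) = nd.Y x₁ y₁ + nd.Y x₂ y₂ + nd.u * nd.X x₂ := by
    have := nd.negY_eq x₂ y₂
    rw [← hz] at this
    rw [hL, sub_mul, show nd.X x₁ - nd.X x₂ = x₁ - x₂ by simp only [X]; ring,
      div_mul_cancel₀ _ (sub_ne_zero.2 hx)]
    simp only [Y, X] at this ⊢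
    linear_combination -this
  have e2 : (L + nd.u) * (nd.X x₁ - nd.X x₂) = nd.Y x₁ y₁ + nd.Y x₂ y₂ + nd.u * nd.X x₁ := by
    linear_combination e1
  have hd : v (nd.X x₁ - nd.X x₂) ≤ γ := A.valuation.map_sub_le hX₁.le hX₂.le
  have big : ∀ a : K, v (a * (nd.X x₁ - nd.X x₂)) = γ → 1 ≤ v a := by
    intro a ha
    by_contra hc
    rw [not_le] at hc
    rw [map_mul] at ha
    have : v a * v (nd.X x₁ - nd.X x₂) < γ :=
      (mul_le_mul_right hd _).trans_lt (mul_lt_of_lt_one_left (zero_lt_iff.2 hγ0) hc)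
    exact this.ne ha
  have h12 : 1 ≤ v (L * (L + nd.u)) := by
    rw [map_mul]
    exact one_le_mul (big _ (by rw [e1, hnum])) (big _ (by rw [e2, hnum']))
  rw [sub_sub, A.valuation.map_sub_eq_of_lt_left]
  · exact h12
  · exact (A.valuation.map_add_lt (hX₁ ▸ hγ) (hX₂ ▸ hγ)).trans_le h12

/-- The double of a middle point has nonsingular reduction. -/
theorem Mid.two_inE0 (hW : IntAt A W) {P : W.toAffine.Point} (hP : nd.Mid P) :
    InE0 A W (P + P) := by
  obtain ⟨x, y, h, rfl, hX, hY, hXY, hXY'⟩ := hP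
  by_cases hy : y = W.toAffine.negY x y
  · rw [Point.add_self_of_Y_eq hy]; exact inE0_zero
  rw [Point.add_self_of_Y_ne hy]
  apply nd.inE0_of_one_le hW
  rw [nd.addX_eq]
  set L := W.toAffine.slope x x y y - nd.s with hL
  have hd : dY W x y ≠ 0 := by
    intro h0; apply hy
    simp only [dY] at h0; simp only [negY]
    linear_combination h0
  have el : W.toAffine.slope x x y y * dY W x y = -dX W x y := by
    rw [slope_of_Y_ne rfl hy, show y - W.toAffine.negY x y = dY W x y by simp [dY, negY]; ring,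
      div_mul_cancel₀ _ hd]
    simp only [dX]; ring
  have e1 : L * dY W x y = -(nd.u * nd.Y x y - 3 * nd.X x ^ 2) := by
    rw [← nd.dX_eq, hL]; linear_combination el
  have e2 : (L + nd.u) * dY W x y
      = 3 * nd.X x ^ 2 + nd.u * (nd.Y x y + nd.u * nd.X x) := by
    linear_combination e1 + nd.u * nd.dY_eq x y
  have hM : v (nd.Y x y) = v (nd.Y x y + nd.u * nd.X x) := by
    refine le_antisymm ?_ (A.valuation.map_add_le le_rfl (by rwa [nd.val_u_mul]))
    calc v (nd.Y x y) = v ((nd.Y x y + nd.u * nd.X x) - nd.u * nd.X x) := by ring_nf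
      _ ≤ v (nd.Y x y + nd.u * nd.X x) :=
        A.valuation.map_sub_le le_rfl (by rwa [nd.val_u_mul])
  have hY0 : v (nd.Y x y) ≠ 0 := by
    intro h0
    apply hd
    have hX0 : nd.X x = 0 := A.valuation.zero_iff.1 (le_antisymm (h0 ▸ hXY) zero_le)
    rw [nd.dY_eq, hX0, A.valuation.zero_iff.1 h0]; ring
  have hXX : v (3 * nd.X x ^ 2) < v (nd.Y x y) := by
    rw [map_mul, map_pow, sq, ← mul_assoc]
    have h1 : v (3 : K) * v (nd.X x) < 1 := by
      rw [← map_mul]; exact val_mul_lt_right A (val_ofNat_le A 3) hX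
    exact (mul_le_mul_right hXY _).trans_lt (mul_lt_of_lt_one_left (zero_lt_iff.2 hY0) h1)
  have hden : v (dY W x y) ≤ v (nd.Y x y) := by
    rw [nd.dY_eq, show 2 * nd.Y x y + nd.u * nd.X x
      = nd.Y x y + (nd.Y x y + nd.u * nd.X x) by ring]
    exact A.valuation.map_add_le le_rfl hM.ge
  have big : ∀ a : K, v (a * dY W x y) = v (nd.Y x y) → 1 ≤ v a := by
    intro a ha
    by_contra hc
    rw [not_le] at hc
    rw [map_mul] at ha
    have : v a * v (dY W x y) < v (nd.Y x y) :=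
      (mul_le_mul_right hden _).trans_lt (mul_lt_of_lt_one_left (zero_lt_iff.2 hY0) hc)
    exact this.ne ha
  have h12 : 1 ≤ v (L * (L + nd.u)) := by
    rw [map_mul]
    refine one_le_mul (big _ ?_) (big _ ?_)
    · rw [e1, A.valuation.map_neg, A.valuation.map_sub_eq_of_lt_left (by rwa [nd.val_u_mul]),
        nd.val_u_mul]
    · rw [e2, A.valuation.map_add_eq_of_lt_right (by rwa [nd.val_u_mul, ← hM]), nd.val_u_mul, ← hM]
  rw [sub_sub, A.valuation.map_sub_eq_of_lt_left]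
  · exact h12
  · exact (A.valuation.map_add_lt hX hX).trans_le h12

/-- Adding a point of class `1` to one of class `e` gives class `e + 1`, until the middle. -/
theorem plus_add_plus {w : A.ValueGroup} (hw0 : 0 < w) (hw1 : w < 1) {h e : ℕ}
    (hc : v nd.c = w ^ (2 * h)) (he : 1 ≤ e) (heh : e + 1 ≤ h) {x₁ y₁ x₂ y₂ : K}
    {h₁ : W.toAffine.Nonsingular x₁ y₁} {h₂ : W.toAffine.Nonsingular x₂ y₂}
    (hX₁ : v (nd.X x₁) = w) (hY₁ : v (nd.Y x₁ y₁) < w)
    (hX₂ : v (nd.X x₂) = w ^ e) (hY₂ : v (nd.Y x₂ y₂) < w ^ e)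
    (hd : v (nd.X x₁ - nd.X x₂) = w) :
    (e + 1 < h ∧ nd.Plus (.some x₁ y₁ h₁ + .some x₂ y₂ h₂) (w ^ (e + 1))) ∨
      (e + 1 = h ∧ nd.Mid (.some x₁ y₁ h₁ + .some x₂ y₂ h₂)) := by
  have pw : ∀ {a b : ℕ}, a < b → w ^ b < w ^ a := fun hab =>
    pow_lt_pow_right_of_lt_one₀ hw0 hw1 hab
  have pl : ∀ {a b : ℕ}, a ≤ b → w ^ b ≤ w ^ a := fun hab =>
    pow_le_pow_of_le_one zero_le hw1.le hab
  have hx : x₁ ≠ x₂ := by
    rintro rfl; rw [sub_self, A.valuation.map_zero] at hd; exact hw0.ne hd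
  have hXd : nd.X x₁ - nd.X x₂ ≠ 0 := by
    simp only [X, sub_sub_sub_cancel_right]; exact sub_ne_zero.2 hx
  rw [Point.add_of_X_ne hx]
  set l := W.toAffine.slope x₁ x₂ y₁ y₂ with hldef
  set L := l - nd.s with hL
  set X₁ := nd.X x₁ with hX1def
  set X₂ := nd.X x₂ with hX2def
  set Y₁ := nd.Y x₁ y₁ with hY1def
  set Y₂ := nd.Y x₂ y₂ with hY2def
  have eq₁ : Y₁ * (Y₁ + nd.u * X₁) = X₁ ^ 3 + nd.c := nd.eq_XY h₁.1
  have eq₂ : Y₂ * (Y₂ + nd.u * X₂) = X₂ ^ 3 + nd.c := nd.eq_XY h₂.1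
  have eL : L * (X₁ - X₂) = Y₁ - Y₂ := by
    rw [hL, hldef, slope_of_X_ne hx, sub_mul, hX1def, hX2def,
      show nd.X x₁ - nd.X x₂ = x₁ - x₂ by simp only [X]; ring,
      div_mul_cancel₀ _ (sub_ne_zero.2 hx), hY1def, hY2def]
    simp only [Y]; ring
  have hwe : v X₂ ≤ w := hX₂.le.trans ((pl he).trans (pow_one w).le)
  -- the line is `Y = L X + ν`, with `v L < 1` and `v ν = w ^ (e + 1)`
  have hLlt : v L < 1 := by
    by_contra hc'
    rw [not_lt] at hc'
    have h1 : v (L * (X₁ - X₂)) < w := by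
      rw [eL]
      exact A.valuation.map_sub_lt hY₁ (hY₂.trans_le ((pl he).trans (pow_one w).le))
    rw [map_mul, hd] at h1
    exact not_le.2 h1 (le_mul_of_one_le_left' hc')
  set ν := Y₁ - L * X₁ with hν
  set D := Y₁ * X₂ - Y₂ * X₁ with hD
  have eD : ν * (X₂ - X₁) = D := by
    rw [hν, hD]; linear_combination X₁ * eL
  have hDv : v D = w ^ (e + 2) := by
    have key : D * (nd.u * (X₁ * X₂) + (Y₁ * X₂ + Y₂ * X₁))
        = (X₁ * X₂) ^ 2 * (X₁ - X₂) + nd.c * ((X₂ - X₁) * (X₂ + X₁)) := by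
      rw [hD]; linear_combination X₂ ^ 2 * eq₁ - X₁ ^ 2 * eq₂
    have hl : v (nd.u * (X₁ * X₂) + (Y₁ * X₂ + Y₂ * X₁)) = w ^ (e + 1) := by
      have h12 : v (nd.u * (X₁ * X₂)) = w ^ (e + 1) := by
        rw [nd.val_u_mul, map_mul, hX₁, hX₂, ← pow_succ']
      rw [A.valuation.map_add_eq_of_lt_left, h12]
      rw [h12]
      refine A.valuation.map_add_lt ?_ ?_
      · rw [map_mul, hX₂, pow_succ']
        exact mul_lt_mul_of_pos_right hY₁ (pow_pos hw0 e)
      · rw [map_mul, hX₁, pow_succ]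
        exact mul_lt_mul_of_pos_right hY₂ hw0
    have hr : v ((X₁ * X₂) ^ 2 * (X₁ - X₂) + nd.c * ((X₂ - X₁) * (X₂ + X₁)))
        = w ^ (2 * e + 3) := by
      have h12 : v ((X₁ * X₂) ^ 2 * (X₁ - X₂)) = w ^ (2 * e + 3) := by
        rw [map_mul, map_pow, map_mul, hX₁, hX₂, hd, ← pow_succ', ← pow_mul, ← pow_succ]
        ring_nf
      rw [A.valuation.map_add_eq_of_lt_left, h12]
      rw [h12, map_mul, map_mul, hc, A.valuation.map_sub_swap, hd]
      calc w ^ (2 * h) * (w * v (X₂ + X₁)) ≤ w ^ (2 * h) * (w * w) :=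
            mul_le_mul_right (mul_le_mul_right (A.valuation.map_add_le hwe hX₁.le) _) _
        _ = w ^ (2 * h + 2) := by rw [← sq, ← pow_add]
        _ < w ^ (2 * e + 3) := pw (by omega)
    rw [← key, map_mul, hl] at hr
    apply mul_right_cancel₀ (pow_ne_zero (e + 1) hw0.ne')
    rw [hr, ← pow_add]; ring_nf
  have hνv : v ν = w ^ (e + 1) := by
    have := congrArg v eD
    rw [map_mul, hDv, A.valuation.map_sub_swap X₂ X₁, hd, pow_succ] at this
    exact mul_right_cancel₀ hw0.ne' this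
  set x₃ := W.toAffine.addX x₁ x₂ l with hx₃
  set y₃ := W.toAffine.negAddY x₁ x₂ y₁ l with hy₃
  have eX₃ : nd.X x₃ = L * (L + nd.u) - X₁ - X₂ := by rw [hx₃, nd.addX_eq]
  have eY₃ : nd.Y x₃ y₃ = L * nd.X x₃ + ν := by
    rw [hν, hX1def, hY1def, hL, hy₃, negAddY]
    simp only [X, Y, ← hx₃]; ring
  have hprod : X₁ * X₂ * nd.X x₃ = ν ^ 2 - nd.c := by
    apply mul_left_cancel₀ hXd
    rw [eX₃, hν]
    have hY₂' : Y₂ = Y₁ - L * (X₁ - X₂) := by linear_combination eL
    rw [hY₂'] at eq₂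
    linear_combination X₂ * eq₁ - X₁ * eq₂
  have e₃ : nd.Y x₃ y₃ * (nd.Y x₃ y₃ + nd.u * nd.X x₃) = nd.X x₃ ^ 3 + nd.c :=
    nd.eq_XY (equation_negAdd h₁.1 h₂.1 fun hh => hx hh.1)
  have hnY : nd.Y x₃ (W.toAffine.addY x₁ x₂ y₁ l) = -(nd.Y x₃ y₃ + nd.u * nd.X x₃) := by
    rw [addY, ← hx₃, ← hy₃, nd.negY_eq]; ring
  have hX12 : v (X₁ * X₂) = w ^ (e + 1) := by rw [map_mul, hX₁, hX₂, ← pow_succ']
  have hν2 : v (ν ^ 2) = w ^ (2 * (e + 1)) := by rw [map_pow, hνv, ← pow_mul, mul_comm 2]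
  rcases lt_or_eq_of_le heh with hlt | heq
  · refine .inl ⟨hlt, _, _, _, rfl, (pw (a := 0) (by omega)).trans_le (pow_zero w).le, ?_, ?_⟩
    all_goals
      have hX₃ : v (nd.X x₃) = w ^ (e + 1) := by
        have := congrArg v hprod
        rw [map_mul, hX12, A.valuation.map_sub_eq_of_lt_left (by rw [hν2, hc]; exact pw (by omega)),
          hν2] at this
        apply mul_left_cancel₀ (pow_ne_zero (e + 1) hw0.ne')
        rw [this, ← pow_add]; ring_nf
    · exact hX₃
    · have hLX : v (L * nd.X x₃) < v ν := by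
        rw [map_mul, hX₃, hνv]
        exact mul_lt_of_lt_one_left (pow_pos hw0 _) hLlt
      have hY₃ : v (nd.Y x₃ y₃) = w ^ (e + 1) := by
        rw [eY₃, A.valuation.map_add_eq_of_lt_right hLX, hνv]
      have := congrArg v e₃
      rw [map_mul, hY₃] at this
      rw [hnY, A.valuation.map_neg]
      refine lt_of_mul_lt_mul_left (a := w ^ (e + 1)) ?_ zero_le
      rw [this, ← pow_add]
      refine A.valuation.map_add_lt ?_ (hc.trans_lt (pw (by omega)))
      rw [map_pow, hX₃, ← pow_mul]; exact pw (by omega)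
  · refine .inr ⟨heq, _, _, _, rfl, ?_⟩
    have hX₃ : v (nd.X x₃) ≤ w ^ h := by
      have := congrArg v hprod
      rw [map_mul, hX12, heq] at this
      refine le_of_mul_le_mul_left (this.le.trans ?_) (pow_pos hw0 h)
      rw [← pow_add]
      refine A.valuation.map_sub_le ?_ ?_
      · rw [hν2, heq, two_mul]
      · rw [hc, two_mul]
    have h1 : w ^ h < 1 := (pw (a := 0) (by omega)).trans_le (pow_zero w).le
    have hY₃ : v (nd.Y x₃ y₃) = w ^ h := by
      have hLX : v (L * nd.X x₃) < v ν := by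
        rw [map_mul, hνv, heq]
        exact (mul_le_mul_right hX₃ _).trans_lt (mul_lt_of_lt_one_left (pow_pos hw0 _) hLlt)
      rw [eY₃, A.valuation.map_add_eq_of_lt_right hLX, hνv, heq]
    have hother : v (nd.Y x₃ y₃ + nd.u * nd.X x₃) = w ^ h := by
      have := congrArg v e₃
      rw [map_mul, hY₃, A.valuation.map_add_eq_of_lt_right (x := nd.X x₃ ^ 3), hc] at this
      · apply mul_left_cancel₀ (pow_ne_zero h hw0.ne')
        rw [this, ← pow_add, two_mul]
      · rw [hc, map_pow]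
        calc v (nd.X x₃) ^ 3 ≤ (w ^ h) ^ 3 := pow_le_pow_left₀ zero_le hX₃ 3
          _ = w ^ (3 * h) := by rw [← pow_mul, mul_comm]
          _ < w ^ (2 * h) := pw (by omega)
    refine ⟨hX₃.trans_lt h1, ?_, ?_, ?_⟩
    · rw [hnY, A.valuation.map_neg, hother]; exact h1
    · rw [hnY, A.valuation.map_neg, hother]; exact hX₃
    · rw [hnY, show -(nd.Y x₃ y₃ + nd.u * nd.X x₃) + nd.u * nd.X x₃ = -nd.Y x₃ y₃ by ring,
        A.valuation.map_neg, hY₃]
      exact hX₃

end NodeData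

end FLTAgent.ECReduction
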