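import Fermat.Prelude.Def_FLTPrelim_GaloisRep
import Fermat.Agent.ECReduction.Node
import Fermat.Agent.Density.Inertia

/-!
# Inertia acting on the points of an integral Weierstrass curve

`InertiaElt A σ` says that `σ` moves integral elements inside their residue class and keeps the
valuation.  Such `σ` moves points of `E0` only by points of `E1` (`smul_sub_of_inE0`) and, at a
node, moves odd torsion points only by points of `E0` (`smul_sub_inE0`).
-/

namespace FLTAgent.ECReduction

open WeierstrassCurve WeierstrassCurve.Affine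

variable {F K : Type*} [Field F] [Field K] [Algebra F K] (A : ValuationSubring K)

local notation "v" => A.valuation

/-- `σ` moves integral elements only inside their residue class and preserves the valuation. -/
structure InertiaElt (σ : K ≃ₐ[F] K) : Prop where
  sub_lt : ∀ x, v x ≤ 1 → v (σ x - x) < 1
  val_map : ∀ x, v (σ x) = v x

variable {A}

/-- Preservation of the valuation is automatic when every orbit is finite. -/
theorem InertiaElt.of_orbit {σ : K ≃ₐ[F] K} (h : ∀ x, v x ≤ 1 → v (σ x - x) < 1)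
    (horb : ∀ x : K, ∃ n, 0 < n ∧ (⇑σ)^[n] x = x) : InertiaElt A σ := by
  refine ⟨h, fun x => ?_⟩
  by_cases hx : x = 0
  · rw [hx, map_zero]
  have key : ∀ y : K, y ≠ 0 → ¬ v (σ y / y) < 1 := by
    intro y hy hlt
    obtain ⟨n, hn, hyn⟩ := horb y
    have hs : ∀ i, v ((⇑σ)^[i] (σ y / y)) < 1 := fun i => by
      induction i with
      | zero => exact hlt
      | succ i ih =>
        rw [Function.iterate_succ_apply']
        set z := (⇑σ)^[i] (σ y / y)
        rw [show σ z = (σ z - z) + z by ring]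
        exact val_add_lt A (h z ih.le) ih
    have hr : ∀ i, (⇑σ)^[i] (σ y / y) * (⇑σ)^[i] y = (⇑σ)^[i + 1] y := fun i => by
      induction i with
      | zero => simp [div_mul_cancel₀ _ hy]
      | succ i ih => simp only [Function.iterate_succ_apply', ← map_mul] at ih ⊢; rw [ih]
    have hne : ∀ i, (⇑σ)^[i] y ≠ 0 := fun i => by
      induction i with
      | zero => exact hy
      | succ i ih => rw [Function.iterate_succ_apply']; simpa using ih
    have hdec : ∀ i, 0 < i → v ((⇑σ)^[i] y) < v y := fun i hi => by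
      induction i, hi using Nat.le_induction with
      | base =>
        rw [← hr 0, map_mul]
        exact mul_lt_of_lt_one_left (A.valuation.pos_iff.2 hy) (hs 0)
      | succ i hi ih =>
        rw [← hr i, map_mul]
        exact (mul_lt_of_lt_one_left (A.valuation.pos_iff.2 (hne i)) (hs i)).trans ih
    exact absurd (hdec n hn) (by rw [hyn]; exact lt_irrefl _)
  have h1 := key x hx
  have h2 := key x⁻¹ (inv_ne_zero hx)
  rw [not_lt, map_div₀, one_le_div₀ (A.valuation.pos_iff.2 hx)] at h1
  rw [map_inv₀, not_lt, map_div₀, map_inv₀, map_inv₀,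
    one_le_div₀ (inv_pos.2 (A.valuation.pos_iff.2 hx)),
    inv_le_inv₀ (A.valuation.pos_iff.2 hx) (A.valuation.pos_iff.2 (by simpa using hx))] at h2
  exact le_antisymm h2 h1

variable {W : WeierstrassCurve K} {σ : K ≃ₐ[F] K}

/-- `σ` fixes the coefficients of `W`. -/
structure FixesCoeffs (W : WeierstrassCurve K) (σ : K ≃ₐ[F] K) : Prop where
  h₁ : σ W.a₁ = W.a₁
  h₂ : σ W.a₂ = W.a₂
  h₃ : σ W.a₃ = W.a₃
  h₄ : σ W.a₄ = W.a₄
  h₆ : σ W.a₆ = W.a₆

namespace NodeData

variable (nd : NodeData A W) (hσ : InertiaElt A σ) (hf : FixesCoeffs W σ)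

include hσ hf

theorem map_r_t : σ nd.r = nd.r ∧ σ nd.t = nd.t := by
  have h1 := congrArg σ nd.eY
  have h2 := congrArg σ nd.eX
  simp only [dY, dX, map_sub, map_add, map_mul, map_pow, map_ofNat, map_zero, hf.h₁, hf.h₂, hf.h₃,
    hf.h₄] at h1 h2
  have g1 := nd.eY
  have g2 := nd.eX
  simp only [dY] at g1
  simp only [dX] at g2
  have hr : σ nd.r = nd.r := by
    by_contra hne
    have e : (σ nd.r - nd.r) * (W.a₁ ^ 2 + 4 * W.a₂ + 6 * (σ nd.r + nd.r)) = 0 := by
      linear_combination W.a₁ * (h1 - g1) - 2 * (h2 - g2)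
    have hu : v (W.a₁ ^ 2 + 4 * W.a₂ + 6 * (σ nd.r + nd.r)) = 1 := by
      refine val_eq_one_of_sub_lt A (y := nd.u * nd.u) (val_mul_eq_one A nd.val_u nd.val_u) ?_
      rw [show W.a₁ ^ 2 + 4 * W.a₂ + 6 * (σ nd.r + nd.r) - nd.u * nd.u = 6 * (σ nd.r - nd.r) by
        simp only [u]; linear_combination -4 * nd.es]
      exact val_mul_lt_right A (val_ofNat_le A 6) (hσ.sub_lt _ nd.hr)
    exact ne_zero_of_val_eq_one A hu ((mul_eq_zero.1 e).resolve_left (sub_ne_zero.2 hne))
  refine ⟨hr, ?_⟩
  rw [hr] at h1 h2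
  have e : nd.u * (σ nd.t - nd.t) = 0 := by
    simp only [u]; linear_combination (h2 - g2) + nd.s * (h1 - g1)
  exact sub_eq_zero.1 ((mul_eq_zero.1 e).resolve_left (ne_zero_of_val_eq_one A nd.val_u))

theorem map_s : σ nd.s = nd.s := by
  have h := congrArg σ nd.es
  simp only [map_add, map_mul, map_pow, map_ofNat, hf.h₁, hf.h₂, (nd.map_r_t hσ hf).1] at h
  have e : (σ nd.s - nd.s) * (σ nd.s + nd.s + W.a₁) = 0 := by linear_combination h - nd.es
  have hu : v (σ nd.s + nd.s + W.a₁) = 1 := by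
    refine val_eq_one_of_sub_lt A nd.val_u ?_
    rw [show σ nd.s + nd.s + W.a₁ - nd.u = σ nd.s - nd.s by simp only [u]; ring]
    exact hσ.sub_lt _ nd.hs
  exact sub_eq_zero.1 ((mul_eq_zero.1 e).resolve_right (ne_zero_of_val_eq_one A hu))

theorem val_X_map (x : K) : v (nd.X (σ x)) = v (nd.X x) := by
  rw [← hσ.val_map (nd.X x)]
  simp only [X, map_sub, (nd.map_r_t hσ hf).1]

theorem val_Y_map (x y : K) : v (nd.Y (σ x) (σ y)) = v (nd.Y x y) := by
  rw [← hσ.val_map (nd.Y x y)]
  simp only [Y, map_sub, map_mul, (nd.map_r_t hσ hf).1, (nd.map_r_t hσ hf).2, nd.map_s hσ hf]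

end NodeData

theorem resSingular_map_iff (hW : IntAt A W) (hσ : InertiaElt A σ) (x y : K) :
    ResSingular A W (σ x) (σ y) ↔ ResSingular A W x y := by
  constructor
  · intro h
    have hx : v x ≤ 1 := hσ.val_map x ▸ h.1
    have hy : v y ≤ 1 := hσ.val_map y ▸ h.2.1
    exact resSingular_congr hW h (by rw [A.valuation.map_sub_swap]; exact hσ.sub_lt x hx)
      (by rw [A.valuation.map_sub_swap]; exact hσ.sub_lt y hy)
  · exact fun h => resSingular_congr hW h (hσ.sub_lt x h.1) (hσ.sub_lt y h.2.1)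

/-! ### The action on points -/

variable [DecidableEq K] {R : Type*} [CommRing R] [Algebra R F] [Algebra R K] [IsScalarTower R F K]
  {W₀ : Affine R}

omit [DecidableEq K] in
/-- A Galois automorphism fixes the coefficients of a base changed curve. -/
theorem fixesCoeffs (σ : K ≃ₐ[F] K) : FixesCoeffs (W₀⁄K) σ := by
  constructor <;>
    simp [Affine.baseChange, WeierstrassCurve.baseChange, IsScalarTower.algebraMap_apply R F K]

omit [DecidableEq K] in
theorem nonsingular_smul (σ : K ≃ₐ[F] K) {x y : K} (h : (W₀⁄K).Nonsingular x y) :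
    (W₀⁄K).Nonsingular (σ x) (σ y) :=
  (W₀.baseChange_nonsingular (f := σ.toAlgHom) σ.toAlgHom.injective ..).2 h

/-- Galois acts on affine points coordinatewise. -/
theorem smul_some (σ : K ≃ₐ[F] K) {x y : K} (h : (W₀⁄K).Nonsingular x y) :
    σ • (Point.some x y h : (W₀⁄K).Point)
      = Point.some (σ x) (σ y) (nonsingular_smul σ h) :=
  rfl

theorem InE0.smul (hW : IntAt A (W₀⁄K)) (hσ : InertiaElt A σ) {P : (W₀⁄K).Point}
    (hP : InE0 A (W₀⁄K) P) : InE0 A (W₀⁄K) (σ • P) := by
  rcases P with _ | ⟨x, y, h⟩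
  · exact hP
  · rw [smul_some, inE0_some, resSingular_map_iff hW hσ]
    exact hP

/-- An integral point with nonsingular reduction is moved by inertia only by a point reducing to
the point at infinity. -/
theorem smul_sub_of_inE0 (hW : IntAt A (W₀⁄K)) (hσ : InertiaElt A σ) {x y : K}
    {h : (W₀⁄K).Nonsingular x y} (hP : ¬ ResSingular A (W₀⁄K) x y) (hx : v x ≤ 1) :
    (σ • (Point.some x y h : (W₀⁄K).Point) - .some x y h = 0) ∨
      ∃ x' y' h', σ • (Point.some x y h : (W₀⁄K).Point) - .some x y h = .some x' y' h' ∧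
        1 < v x' := by
  have hy : v y ≤ 1 := by
    have he := h.1
    rw [equation_iff] at he
    refine val_le_of_monic_quadratic hW hx ?_
    exact he
  rw [smul_some]
  refine one_lt_val_sub_of_residue_eq hW (fun hs => hP ((resSingular_map_iff hW hσ x y).1 hs))
    (hσ.val_map x ▸ hx) (hσ.val_map y ▸ hy) (hσ.sub_lt x hx) (hσ.sub_lt y hy)

/-- Inertia acts trivially on the group of components, as far as odd torsion is concerned. -/
theorem smul_sub_inE0 (hW : IntAt A (W₀⁄K)) (nd : NodeData A (W₀⁄K)) (hσ : InertiaElt A σ)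
    {P : (W₀⁄K).Point} {m : ℕ} (hm : Odd m) (hP : m • P = 0) :
    InE0 A (W₀⁄K) (σ • P - P) := by
  by_cases hE : InE0 A (W₀⁄K) P
  · exact (hE.smul hW hσ).sub hW hE
  have hplus : ∀ (Q : (W₀⁄K).Point) γ, nd.Plus Q γ → InE0 A (W₀⁄K) (σ • Q - Q) := by
    intro Q γ hQ
    refine NodeData.Plus.sub_inE0 nd hW (γ := γ) ?_ hQ
    obtain ⟨x, y, h, rfl, hγ, hX, hY⟩ := hQ
    exact ⟨_, _, _, smul_some σ h, hγ, (nd.val_X_map hσ (fixesCoeffs σ) x).trans hX,
      (nd.val_Y_map hσ (fixesCoeffs σ) x y).trans_lt hY⟩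
  rcases nd.trichotomy hW hE with ⟨γ, h⟩ | ⟨γ, h⟩ | h
  · exact hplus P γ h
  · have := (hplus _ γ h).neg hW
    rwa [smul_neg, show -(-(σ • P) - -P) = σ • P - P by abel] at this
  · have h2 : InE0 A (W₀⁄K) ((σ • P - P) + (σ • P - P)) := by
      have := ((h.two_inE0 nd hW).smul hW hσ).sub hW (h.two_inE0 nd hW)
      rwa [smul_add, add_sub_add_comm] at this
    have hm0 : m • (σ • P - P) = 0 := by rw [smul_sub, smul_comm, hP, smul_zero, sub_zero]
    obtain ⟨k, rfl⟩ := hm
    have : σ • P - P = -(k • ((σ • P - P) + (σ • P - P))) := by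
      rw [add_smul, one_smul, mul_smul, two_smul] at hm0
      rw [smul_add]
      exact eq_neg_of_add_eq_zero_right hm0
    rw [this, ← mem_E0 (hW := hW)]
    exact neg_mem (nsmul_mem (mem_E0.2 h2) k)

/-- Elements of the inertia group act trivially on residues and preserve the valuation. -/
theorem inertiaElt_of_mem {A : ValuationSubring Density.Qbar} {σ : Density.GalQ}
    (hσ : σ ∈ A.inertiaSubgroupIn ℚ) : InertiaElt A σ := by
  refine InertiaElt.of_orbit (fun x hx => A.mem_nonunits_iff.1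
    ((Density.mem_inertiaSubgroupIn_iff.1 hσ).2 x ((A.valuation_le_one_iff x).1 hx))) fun x => ?_
  have hfin : ((minpoly ℚ x).rootSet Density.Qbar).Finite := Polynomial.rootSet_finite _ _
  have := hfin.to_subtype
  have hmem : ∀ n : ℕ, (⇑σ)^[n] x ∈ (minpoly ℚ x).rootSet Density.Qbar := by
    intro n
    rw [Polynomial.mem_rootSet]
    refine ⟨minpoly.ne_zero (Algebra.IsIntegral.isIntegral x), ?_⟩
    induction n with
    | zero => exact minpoly.aeval ℚ x
    | succ n ih =>
      rw [Function.iterate_succ_apply', Polynomial.aeval_algHom_apply σ, ih, _root_.map_zero]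
  obtain ⟨m, n, hne, hmn⟩ := Finite.exists_ne_map_eq_of_infinite
    (fun n : ℕ => (⟨_, hmem n⟩ : (minpoly ℚ x).rootSet Density.Qbar))
  have hmn' : (⇑σ)^[m] x = (⇑σ)^[n] x := congrArg Subtype.val hmn
  wlog hlt : m < n generalizing m n
  · exact this n m hne.symm hmn.symm hmn'.symm (by omega)
  exact ⟨n - m, by omega, Function.iterate_cancel σ.injective hmn'.symm⟩

end FLTAgent.ECReduction
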