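import Mathlib.RingTheory.Valuation.ValuationSubring

/-!
# Elementary facts about the valuation of a valuation subring

For a valuation subring `A` with valuation `v`: integral elements have `v ≤ 1` and are closed
under the ring operations, elements with `v < 1` absorb them, and units are stable under small
perturbations.  Used throughout the reduction theory of Weierstrass curves (`ECReduction`).
-/

namespace FLTAgent.ECReduction

variable {K : Type*} [Field K] (A : ValuationSubring K)

local notation "v" => A.valuation

/-- Valuation at most `1` means membership in the valuation ring. -/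
theorem val_le_iff {x : K} : v x ≤ 1 ↔ x ∈ A := A.valuation_le_one_iff x

/-- A product of integral elements is integral. -/
theorem val_mul_le {x y : K} (hx : v x ≤ 1) (hy : v y ≤ 1) : v (x * y) ≤ 1 :=
  (val_le_iff A).2 (mul_mem ((val_le_iff A).1 hx) ((val_le_iff A).1 hy))

/-- A sum of integral elements is integral. -/
theorem val_add_le {x y : K} (hx : v x ≤ 1) (hy : v y ≤ 1) : v (x + y) ≤ 1 :=
  A.valuation.map_add_le hx hy

/-- A difference of integral elements is integral. -/
theorem val_sub_le {x y : K} (hx : v x ≤ 1) (hy : v y ≤ 1) : v (x - y) ≤ 1 :=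
  A.valuation.map_sub_le hx hy

/-- The negative of an integral element is integral. -/
theorem val_neg_le {x : K} (hx : v x ≤ 1) : v (-x) ≤ 1 := by simpa using hx

/-- A power of an integral element is integral. -/
theorem val_pow_le {x : K} (hx : v x ≤ 1) (n : ℕ) : v (x ^ n) ≤ 1 :=
  (val_le_iff A).2 (pow_mem ((val_le_iff A).1 hx) n)

theorem val_zero_le : v (0 : K) ≤ 1 := by simp

theorem val_one_le : v (1 : K) ≤ 1 := by simp

theorem val_natCast_le (n : ℕ) : v (n : K) ≤ 1 :=
  (val_le_iff A).2 (natCast_mem A n)

/-- Integers are integral. -/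
theorem val_intCast_le (n : ℤ) : v (n : K) ≤ 1 :=
  (val_le_iff A).2 (intCast_mem A n)

/-- Numerals are integral. -/
theorem val_ofNat_le (n : ℕ) [n.AtLeastTwo] : v (OfNat.ofNat n : K) ≤ 1 := by
  rw [← Nat.cast_ofNat]; exact val_natCast_le A _

/-- A non-unit times an integral element is a non-unit. -/
theorem val_mul_lt_left {x y : K} (hx : v x < 1) (hy : v y ≤ 1) : v (x * y) < 1 := by
  rw [map_mul]; exact lt_of_le_of_lt (mul_le_of_le_one_right' hy) hx

/-- An integral element times a non-unit is a non-unit. -/
theorem val_mul_lt_right {x y : K} (hx : v x ≤ 1) (hy : v y < 1) : v (x * y) < 1 := by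
  rw [map_mul]; exact lt_of_le_of_lt (mul_le_of_le_one_left' hx) hy

/-- A sum of non-units is a non-unit. -/
theorem val_add_lt {x y : K} (hx : v x < 1) (hy : v y < 1) : v (x + y) < 1 :=
  A.valuation.map_add_lt hx hy

/-- A difference of non-units is a non-unit. -/
theorem val_sub_lt {x y : K} (hx : v x < 1) (hy : v y < 1) : v (x - y) < 1 :=
  A.valuation.map_sub_lt hx hy

theorem val_neg_lt {x : K} (hx : v x < 1) : v (-x) < 1 := by simpa using hx

theorem val_zero_lt : v (0 : K) < 1 := by simp

/-- A positive power of a non-unit is a non-unit. -/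
theorem val_pow_lt {x : K} (hx : v x < 1) {n : ℕ} (hn : n ≠ 0) : v (x ^ n) < 1 := by
  rw [map_pow]; exact pow_lt_one₀ zero_le hx hn

/-- A unit plus an element of the maximal ideal is a unit. -/
theorem val_eq_one_of_sub_lt {x y : K} (hy : v y = 1) (h : v (x - y) < 1) : v x = 1 := by
  have e : x = y + (x - y) := by ring
  rw [e, A.valuation.map_add_eq_of_lt_left (h.trans_le hy.ge), hy]

/-- An element of valuation `1` is nonzero. -/
theorem ne_zero_of_val_eq_one {x : K} (h : v x = 1) : x ≠ 0 := by
  rintro rfl; simp at h

theorem ne_zero_of_one_lt_val {x : K} (h : 1 < v x) : x ≠ 0 := by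
  rintro rfl; simp at h

theorem val_div_le {x y : K} (hx : v x ≤ 1) (hy : v y = 1) : v (x / y) ≤ 1 := by
  rwa [map_div₀, hy, div_one]

theorem val_div_lt {x y : K} (hx : v x < 1) (hy : v y = 1) : v (x / y) < 1 := by
  rwa [map_div₀, hy, div_one]

theorem val_mul_eq_one {x y : K} (hx : v x = 1) (hy : v y = 1) : v (x * y) = 1 := by
  rw [map_mul, hx, hy, one_mul]

/-- `x / y` is not integral if `x` is a unit and `y` is in the maximal ideal. -/
theorem one_lt_val_div {x y : K} (hy0 : y ≠ 0) (hx : v x = 1) (hy : v y < 1) :
    1 < v (x / y) := by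
  rw [map_div₀, hx, one_div, one_lt_inv₀ (A.valuation.pos_iff.2 hy0)]; exact hy

/-- A monic quadratic with non-integral linear coefficient. -/
theorem val_sq_add_of_one_lt {l a b : K} (ha : v a ≤ 1) (hb : v b ≤ 1) (hl : 1 < v l) :
    v (l ^ 2 + a * l + b) = v l ^ 2 := by
  have h1 : v (a * l) ≤ v l := by
    rw [map_mul]; exact mul_le_of_le_one_left' ha
  have hlt : v l < v (l ^ 2) := by
    rw [map_pow, sq]; exact lt_mul_of_one_lt_left (zero_lt_one.trans hl) hl
  have h2 : v (a * l + b) < v (l ^ 2) :=
    (A.valuation.map_add_le h1 (hb.trans hl.le)).trans_lt hlt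
  rw [add_assoc, A.valuation.map_add_eq_of_lt_left h2, map_pow]

/-- If the product of two elements is in the maximal ideal and the sum is integral, then one of
them is in the maximal ideal. -/
theorem val_lt_one_or_of_mul_lt {x y : K} (h : v (x * y) < 1) : v x < 1 ∨ v y < 1 := by
  rw [map_mul] at h
  by_contra hc
  rw [not_or, not_lt, not_lt] at hc
  exact absurd h (not_lt.2 (one_le_mul hc.1 hc.2))

variable {A} in
/-- Roots of monic quadratics with integral coefficients are integral. -/
theorem val_le_of_quadratic {b c z : K} (hb : v b ≤ 1) (hc : v c ≤ 1)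
    (h : z ^ 2 + b * z + c = 0) : v z ≤ 1 := by
  by_contra hz
  rw [not_le] at hz
  have := val_sq_add_of_one_lt A hb hc hz
  rw [h, A.valuation.map_zero] at this
  exact absurd (pow_eq_zero_iff two_ne_zero |>.1 this.symm) (zero_lt_one.trans hz).ne'

end FLTAgent.ECReduction
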