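import Mathlib.AlgebraicGeometry.EllipticCurve.Affine.Point
import Fermat.Agent.ECReduction.Val

/-!
# Reduction of an integral Weierstrass curve at a valuation subring

Without the group law of the reduced curve: the points with nonsingular reduction form a subgroup
`E0`, the points reducing to the point at infinity a subgroup `E1`, and two points with the same
nonsingular reduction differ by zero or by a point with non-integral abscissa
(`one_lt_val_sub_of_residue_eq`).
-/

namespace FLTAgent.ECReduction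

open WeierstrassCurve WeierstrassCurve.Affine

variable {K : Type*} [Field K] (A : ValuationSubring K) (W : WeierstrassCurve K)

local notation "v" => A.valuation

/-- The coefficients of `W` are integral at `A`. -/
structure IntAt : Prop where
  h₁ : v W.a₁ ≤ 1
  h₂ : v W.a₂ ≤ 1
  h₃ : v W.a₃ ≤ 1
  h₄ : v W.a₄ ≤ 1
  h₆ : v W.a₆ ≤ 1

/-- The value of `∂F/∂X` at `(x, y)`, for the Weierstrass polynomial `F`. -/
def dX (x y : K) : K := W.a₁ * y - (3 * x ^ 2 + 2 * W.a₂ * x + W.a₄)

/-- The value of `∂F/∂Y` at `(x, y)`, for the Weierstrass polynomial `F`. -/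
def dY (x y : K) : K := 2 * y + W.a₁ * x + W.a₃

/-- The integral point `(x, y)` reduces to a singular point. -/
def ResSingular (x y : K) : Prop :=
  v x ≤ 1 ∧ v y ≤ 1 ∧ v (dX W x y) < 1 ∧ v (dY W x y) < 1

/-- Points with nonsingular reduction, including those reducing to the point at infinity. -/
def InE0 : W.toAffine.Point → Prop
  | 0 => True
  | .some x y _ => ¬ ResSingular A W x y

/-- Points reducing to the point at infinity. -/
def InE1 : W.toAffine.Point → Prop
  | 0 => True
  | .some x _ _ => 1 < v x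

variable {A W}

@[simp] theorem inE0_zero : InE0 A W 0 := trivial

/-- An affine point has nonsingular reduction iff it does not reduce to the singular point. -/
@[simp] theorem inE0_some {x y : K} {h : W.toAffine.Nonsingular x y} :
    InE0 A W (.some x y h) ↔ ¬ ResSingular A W x y := Iff.rfl

theorem inE0_of_one_lt {x y : K} {h : W.toAffine.Nonsingular x y} (hx : 1 < v x) :
    InE0 A W (.some x y h) := fun hs => not_lt.2 hs.1 hx

theorem dX_le (hW : IntAt A W) {x y : K} (hx : v x ≤ 1) (hy : v y ≤ 1) : v (dX W x y) ≤ 1 :=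
  val_sub_le A (val_mul_le A hW.h₁ hy) (val_add_le A (val_add_le A
    (val_mul_le A (val_ofNat_le A 3) (val_pow_le A hx 2))
    (val_mul_le A (val_mul_le A (val_ofNat_le A 2) hW.h₂) hx)) hW.h₄)

theorem dY_le (hW : IntAt A W) {x y : K} (hx : v x ≤ 1) (hy : v y ≤ 1) : v (dY W x y) ≤ 1 :=
  val_add_le A (val_add_le A (val_mul_le A (val_ofNat_le A 2) hy) (val_mul_le A hW.h₁ hx)) hW.h₃

/-- On an integral equation an integral `x` forces an integral `y`. -/
theorem val_le_of_monic_quadratic (hW : IntAt A W) {x y : K} (hx : v x ≤ 1)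
    (h : y ^ 2 + W.a₁ * x * y + W.a₃ * y = x ^ 3 + W.a₂ * x ^ 2 + W.a₄ * x + W.a₆) : v y ≤ 1 := by
  by_contra hy
  rw [not_le] at hy
  have hb : v (W.a₁ * x + W.a₃) ≤ 1 := val_add_le A (val_mul_le A hW.h₁ hx) hW.h₃
  have hc : v (-(x ^ 3 + W.a₂ * x ^ 2 + W.a₄ * x + W.a₆)) ≤ 1 :=
    val_neg_le A (val_add_le A (val_add_le A (val_add_le A (val_pow_le A hx 3)
      (val_mul_le A hW.h₂ (val_pow_le A hx 2))) (val_mul_le A hW.h₄ hx)) hW.h₆)
  have := val_sq_add_of_one_lt A hb hc hy
  rw [show y ^ 2 + (W.a₁ * x + W.a₃) * y + -(x ^ 3 + W.a₂ * x ^ 2 + W.a₄ * x + W.a₆) = 0 by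
    linear_combination h, A.valuation.map_zero] at this
  exact absurd (pow_eq_zero_iff two_ne_zero |>.1 this.symm) (zero_lt_one.trans hy).ne'

/-- The partial derivatives depend only on the residue class of the point. -/
theorem dX_congr (hW : IntAt A W) {x y x' y' : K} (hx : v x ≤ 1) (hx' : v x' ≤ 1)
    (hxx : v (x - x') < 1) (hyy : v (y - y') < 1) : v (dX W x y - dX W x' y') < 1 := by
  have e : dX W x y - dX W x' y'
      = W.a₁ * (y - y') - (3 * (x + x') + 2 * W.a₂) * (x - x') := by simp only [dX]; ring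
  rw [e]
  exact val_sub_lt A (val_mul_lt_right A hW.h₁ hyy) (val_mul_lt_right A
    (val_add_le A (val_mul_le A (val_ofNat_le A 3) (val_add_le A hx hx'))
      (val_mul_le A (val_ofNat_le A 2) hW.h₂)) hxx)

theorem dY_congr (hW : IntAt A W) {x y x' y' : K}
    (hxx : v (x - x') < 1) (hyy : v (y - y') < 1) : v (dY W x y - dY W x' y') < 1 := by
  have e : dY W x y - dY W x' y' = 2 * (y - y') + W.a₁ * (x - x') := by simp only [dY]; ring
  rw [e]
  exact val_add_lt A (val_mul_lt_right A (val_ofNat_le A 2) hyy) (val_mul_lt_right A hW.h₁ hxx)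

theorem resSingular_congr (hW : IntAt A W) {x y x' y' : K} (h : ResSingular A W x' y')
    (hxx : v (x - x') < 1) (hyy : v (y - y') < 1) : ResSingular A W x y := by
  obtain ⟨hx', hy', hX, hY⟩ := h
  have hx : v x ≤ 1 := by
    rw [show x = (x - x') + x' by ring]; exact val_add_le A hxx.le hx'
  have hy : v y ≤ 1 := by
    rw [show y = (y - y') + y' by ring]; exact val_add_le A hyy.le hy'
  refine ⟨hx, hy, ?_, ?_⟩
  · rw [show dX W x y = (dX W x y - dX W x' y') + dX W x' y' by ring]
    exact val_add_lt A (dX_congr hW hx hx' hxx hyy) hX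
  · rw [show dY W x y = (dY W x y - dY W x' y') + dY W x' y' by ring]
    exact val_add_lt A (dY_congr hW hxx hyy) hY

theorem resSingular_negY_iff (hW : IntAt A W) {x y : K} :
    ResSingular A W x (W.toAffine.negY x y) ↔ ResSingular A W x y := by
  suffices h : ∀ z, ResSingular A W x z → ResSingular A W x (W.toAffine.negY x z) from
    ⟨fun hs => by simpa only [negY_negY] using h _ hs, h y⟩
  rintro z ⟨hx, hz, hX, hY⟩
  refine ⟨hx, ?_, ?_, ?_⟩
  · exact val_sub_le A (val_sub_le A (val_neg_le A hz) (val_mul_le A hW.h₁ hx)) hW.h₃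
  · have e : dX W x (W.toAffine.negY x z) = dX W x z - W.a₁ * dY W x z := by
      simp only [dX, dY, negY]; ring
    rw [e]; exact val_sub_lt A hX (val_mul_lt_right A hW.h₁ hY)
  · have e : dY W x (W.toAffine.negY x z) = - dY W x z := by
      simp only [dY, negY]; ring
    rw [e]; exact val_neg_lt A hY

theorem InE0.neg (hW : IntAt A W) {P : W.toAffine.Point} (hP : InE0 A W P) : InE0 A W (-P) := by
  rcases P with _ | ⟨x, y, h⟩
  · exact hP
  · rw [Point.neg_some, inE0_some]
    exact fun hs => hP ((resSingular_negY_iff hW).1 hs)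

theorem inE0_neg_iff (hW : IntAt A W) {P : W.toAffine.Point} : InE0 A W (-P) ↔ InE0 A W P :=
  ⟨fun h => by simpa using h.neg hW, InE0.neg hW⟩

/-- If a line through a point `(r, t)` with singular reduction meets the curve at `(x, y)` and at
a third point, then one of the latter two reduces to a singular point. -/
theorem resSingular_or_of_line (hW : IntAt A W) {r t x y l x' y' : K}
    (hR : W.toAffine.Equation r t) (hRs : ResSingular A W r t)
    (hP : W.toAffine.Equation x y) (hl : y - t = l * (x - r)) (hne : x ≠ r)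
    (hsum : r + x + x' = l ^ 2 + W.a₁ * l - W.a₂) (hl' : y' - t = l * (x' - r)) :
    ResSingular A W x y ∨ ResSingular A W x' y' := by
  obtain ⟨hr, ht, hX, hY⟩ := hRs
  rw [equation_iff] at hR hP
  have hy : y = t + l * (x - r) := by linear_combination hl
  have key : (x - r) * ((x - r) * (x' - r) - (-(dY W r t) * l - dX W r t)) = 0 := by
    have hx' : x' = l ^ 2 + W.a₁ * l - W.a₂ - r - x := by linear_combination hsum
    subst hy
    subst hx'
    simp only [dX, dY]
    linear_combination hP - hR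
  have hprod : (x - r) * (x' - r) = -(dY W r t) * l - dX W r t :=
    sub_eq_zero.1 ((mul_eq_zero.1 key).resolve_left (sub_ne_zero.2 hne))
  have hs : (x - r) + (x' - r) = l ^ 2 + W.a₁ * l + -(W.a₂ + 3 * r) := by
    linear_combination hsum
  have done : ∀ a b : K, v (a - r) < 1 → v (l * (a - r)) < 1 → b - t = l * (a - r) →
      ResSingular A W a b :=
    fun a b h1 h2 hb => resSingular_congr hW ⟨hr, ht, hX, hY⟩ h1 (hb ▸ h2)
  by_cases hll : v l ≤ 1
  · have hp : v ((x - r) * (x' - r)) < 1 := by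
      rw [hprod]
      exact val_sub_lt A (val_mul_lt_left A (val_neg_lt A hY) hll) hX
    rcases val_lt_one_or_of_mul_lt A hp with h | h
    · exact .inl (done x y h (val_mul_lt_right A hll h) hl)
    · exact .inr (done x' y' h (val_mul_lt_right A hll h) hl')
  · rw [not_le] at hll
    have hp : v ((x - r) * (x' - r)) < v l := by
      rw [hprod]
      refine A.valuation.map_sub_lt ?_ (hX.trans hll)
      rw [map_mul, A.valuation.map_neg]
      exact mul_lt_of_lt_one_left (zero_lt_one.trans hll) hY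
    have hbig : v ((x - r) + (x' - r)) = v l ^ 2 := by
      rw [hs]
      exact val_sq_add_of_one_lt A hW.h₁
        (val_neg_le A (val_add_le A hW.h₂ (val_mul_le A (val_ofNat_le A 3) hr))) hll
    have small : ∀ a b : K, v l ^ 2 ≤ v b → v (a * b) < v l → v (l * a) < 1 := by
      intro a b hb hab
      by_contra hc
      rw [not_lt, map_mul] at hc
      have h1 : v l * 1 ≤ v l ^ 2 * v a := by
        rw [sq, mul_assoc]
        exact mul_le_mul_right hc _
      rw [mul_one] at h1
      exact not_le.2 hab (h1.trans (by rw [map_mul, mul_comm (v a)]; exact mul_le_mul_left hb _))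
    have hsm : ∀ a : K, v (l * a) < 1 → v a < 1 := fun a h => by
      by_contra hc
      rw [not_lt] at hc
      rw [map_mul] at h
      exact not_le.2 h (one_le_mul hll.le hc)
    rcases le_total (v (x - r)) (v (x' - r)) with hle | hle
    · have h := small _ _ (hbig.ge.trans (A.valuation.map_add_le hle le_rfl)) hp
      exact .inl (done x y (hsm _ h) h hl)
    · have h := small _ _ (hbig.ge.trans (A.valuation.map_add_le le_rfl hle))
        (by rwa [mul_comm] at hp)
      exact .inr (done x' y' (hsm _ h) h hl')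

variable [DecidableEq K]

/-- Points with nonsingular reduction are closed under addition. -/
theorem InE0.add (hW : IntAt A W) {P Q : W.toAffine.Point} (hP : InE0 A W P) (hQ : InE0 A W Q) :
    InE0 A W (P + Q) := by
  rcases P with _ | ⟨x₁, y₁, h₁⟩
  · simpa [← Point.zero_def] using hQ
  rcases Q with _ | ⟨x₂, y₂, h₂⟩
  · simpa [← Point.zero_def] using hP
  by_cases hxy : x₁ = x₂ ∧ y₁ = W.toAffine.negY x₂ y₂
  · rw [Point.add_of_Y_eq hxy.1 hxy.2]; exact inE0_zero
  rw [Point.add_some hxy, inE0_some]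
  intro hS
  rw [addY, resSingular_negY_iff hW] at hS
  set l := W.toAffine.slope x₁ x₂ y₁ y₂ with hldef
  have hR := equation_negAdd h₁.1 h₂.1 hxy
  rw [← hldef] at hR
  set r := W.toAffine.addX x₁ x₂ l with hrdef
  set t := W.toAffine.negAddY x₁ x₂ y₁ l with htdef
  have ht : t = l * (r - x₁) + y₁ := by rw [htdef, hrdef]; simp [negAddY]
  have hy₂ : y₂ = l * (x₂ - x₁) + y₁ := by
    by_cases hx : x₁ = x₂
    · rw [← hx, sub_self, mul_zero, zero_add]
      exact (Y_eq_of_Y_ne h₁.1 h₂.1 hx fun h => hxy ⟨hx, h⟩).symm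
    · rw [hldef, slope_of_X_ne hx]
      field_simp [sub_ne_zero.2 hx]
      ring
  have hne : x₁ ≠ r := by
    intro h
    refine hP ?_
    have : y₁ = t := by rw [ht, ← h]; ring
    rw [h, this]
    exact hS
  have hsum : r + x₁ + x₂ = l ^ 2 + W.a₁ * l - W.a₂ := by
    rw [hrdef, addX]; ring
  rcases resSingular_or_of_line hW hR hS h₁.1 (by rw [ht]; ring) hne hsum (y' := y₂)
      (by rw [ht, hy₂]; ring) with h | h
  · exact hP h
  · exact hQ h

theorem InE0.sub (hW : IntAt A W) {P Q : W.toAffine.Point} (hP : InE0 A W P) (hQ : InE0 A W Q) :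
    InE0 A W (P - Q) := by
  rw [sub_eq_add_neg]; exact hP.add hW (hQ.neg hW)

/-- The subgroup of points with nonsingular reduction. -/
def E0 (hW : IntAt A W) : AddSubgroup W.toAffine.Point where
  carrier := {P : W.toAffine.Point | InE0 A W P}
  zero_mem' := inE0_zero (A := A) (W := W)
  add_mem' := fun hP hQ => InE0.add hW hP hQ
  neg_mem' := fun hP => InE0.neg hW hP

/-- Membership in the subgroup of points with nonsingular reduction. -/
theorem mem_E0 {hW : IntAt A W} {P : W.toAffine.Point} : P ∈ E0 hW ↔ InE0 A W P :=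
  ⟨fun h => h, fun h => h⟩

/-- Two points with the same nonsingular affine reduction differ by zero or by a point reducing
to the point at infinity. -/
theorem one_lt_val_sub_of_residue_eq (hW : IntAt A W) {x₁ y₁ x₂ y₂ : K}
    {h₁ : W.toAffine.Nonsingular x₁ y₁} {h₂ : W.toAffine.Nonsingular x₂ y₂}
    (hP : ¬ ResSingular A W x₁ y₁) (hx₁ : v x₁ ≤ 1) (hy₁ : v y₁ ≤ 1)
    (hxx : v (x₁ - x₂) < 1) (hyy : v (y₁ - y₂) < 1) :
    Point.some x₁ y₁ h₁ - Point.some x₂ y₂ h₂ = 0 ∨
      ∃ x y h, Point.some x₁ y₁ h₁ - Point.some x₂ y₂ h₂ = Point.some x y h ∧ 1 < v x := by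
  have hx₂ : v x₂ ≤ 1 := by
    rw [show x₂ = x₁ - (x₁ - x₂) by ring]; exact val_sub_le A hx₁ hxx.le
  have hy₂ : v y₂ ≤ 1 := by
    rw [show y₂ = y₁ - (y₁ - y₂) by ring]; exact val_sub_le A hy₁ hyy.le
  rw [sub_eq_add_neg, Point.neg_some]
  set z := W.toAffine.negY x₂ y₂ with hz
  have hzv : z = -y₂ - W.a₁ * x₂ - W.a₃ := by rw [hz]; simp [negY]
  have hz1 : v z ≤ 1 := by
    rw [hzv]
    exact val_sub_le A (val_sub_le A (val_neg_le A hy₂) (val_mul_le A hW.h₁ hx₂)) hW.h₃
  by_cases hxy : x₁ = x₂ ∧ y₁ = W.toAffine.negY x₂ z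
  · exact .inl (Point.add_of_Y_eq hxy.1 hxy.2)
  refine .inr ⟨_, _, _, Point.add_some hxy, ?_⟩
  set l := W.toAffine.slope x₁ x₂ y₁ z with hl
  suffices h : 1 < v l by
    have e : W.toAffine.addX x₁ x₂ l = l ^ 2 + W.a₁ * l + (-W.a₂ - x₁ - x₂) := by
      rw [addX]; ring
    rw [e, val_sq_add_of_one_lt A hW.h₁
      (val_sub_le A (val_sub_le A (val_neg_le A hW.h₂) hx₁) hx₂) h]
    exact one_lt_pow₀ h two_ne_zero
  by_cases hx : x₁ = x₂
  · have hy : y₁ ≠ W.toAffine.negY x₂ z := fun h => hxy ⟨hx, h⟩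
    rw [negY_negY] at hy
    have hy' : y₁ = z := (Y_eq_of_X_eq h₁.1 h₂.1 hx).resolve_left hy
    have hne : dY W x₁ y₁ ≠ 0 := by
      intro h0; apply hy
      have : y₂ = z := by
        rw [hzv, ← hx]; simp only [dY] at h0; rw [hy', hzv, ← hx] at h0; linear_combination -h0
      rw [hy', this]
    have hdY : v (dY W x₁ y₁) < 1 := by
      have : dY W x₁ y₁ = y₁ - y₂ := by simp only [dY]; rw [hy', hzv, ← hx]; ring
      rw [this]; exact hyy
    have hdX : v (dX W x₁ y₁) = 1 :=
      le_antisymm (dX_le hW hx₁ hy₁) (not_lt.1 fun h => hP ⟨hx₁, hy₁, h, hdY⟩)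
    have e : l = -dX W x₁ y₁ / dY W x₁ y₁ := by
      rw [hl, slope_of_Y_ne hx (fun h => hxy ⟨hx, h⟩)]
      simp only [dX, dY, negY]
      congr 1 <;> ring
    rw [e]
    exact one_lt_val_div A hne (by rwa [A.valuation.map_neg]) hdY
  · have e : l = (y₁ - z) / (x₁ - x₂) := by rw [hl, slope_of_X_ne hx]
    by_cases hdY : v (dY W x₁ y₁) < 1
    · have hdX : v (dX W x₁ y₁) = 1 :=
        le_antisymm (dX_le hW hx₁ hy₁) (not_lt.1 fun h => hP ⟨hx₁, hy₁, h, hdY⟩)
      have hyz : v (y₁ - z) < 1 := by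
        rw [show y₁ - z = dY W x₁ y₁ - (y₁ - y₂) - W.a₁ * (x₁ - x₂) by
          rw [hzv]; simp only [dY]; ring]
        exact val_sub_lt A (val_sub_lt A hdY hyy) (val_mul_lt_right A hW.h₁ hxx)
      set M := x₁ ^ 2 + x₁ * x₂ + x₂ ^ 2 + W.a₂ * (x₁ + x₂) + W.a₄ - W.a₁ * z with hM
      set D := y₁ + z + W.a₁ * x₁ + W.a₃ with hD
      have hM1 : v M = 1 := by
        refine val_eq_one_of_sub_lt A (y := -dX W x₁ y₁) (by rwa [A.valuation.map_neg]) ?_
        rw [show M - -dX W x₁ y₁
            = W.a₁ * (y₁ - z) - (2 * x₁ + x₂ + W.a₂) * (x₁ - x₂) by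
          rw [hM]; simp only [dX]; ring]
        exact val_sub_lt A (val_mul_lt_right A hW.h₁ hyz) (val_mul_lt_right A (val_add_le A
          (val_add_le A (val_mul_le A (val_ofNat_le A 2) hx₁) hx₂) hW.h₂) hxx)
      have hD1 : v D < 1 := by
        rw [show D = dY W x₁ y₁ - (y₁ - z) by rw [hD]; simp only [dY]; ring]
        exact val_sub_lt A hdY hyz
      have hrel : (y₁ - z) * D = (x₁ - x₂) * M := by
        have e₁ := (equation_iff (W := W.toAffine) x₁ y₁).1 h₁.1
        have e₂ := (equation_iff (W := W.toAffine) x₂ z).1 ((equation_neg ..).2 h₂.1)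
        rw [hM, hD]
        linear_combination e₁ - e₂
      have hne : D ≠ 0 := by
        intro h0; rw [h0, mul_zero] at hrel
        rcases mul_eq_zero.1 hrel.symm with h | h
        · exact hx (sub_eq_zero.1 h)
        · exact ne_zero_of_val_eq_one A hM1 h
      rw [e, show (y₁ - z) / (x₁ - x₂) = M / D by
        rw [div_eq_div_iff (sub_ne_zero.2 hx) hne]; linear_combination hrel]
      exact one_lt_val_div A hne hM1 hD1
    · have hdY1 : v (dY W x₁ y₁) = 1 := le_antisymm (dY_le hW hx₁ hy₁) (not_lt.1 hdY)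
      rw [e]
      refine one_lt_val_div A (sub_ne_zero.2 hx) (val_eq_one_of_sub_lt A hdY1 ?_) hxx
      rw [show y₁ - z - dY W x₁ y₁ = -((y₁ - y₂) + W.a₁ * (x₁ - x₂)) by
        rw [hzv]; simp only [dY]; ring]
      exact val_neg_lt A (val_add_lt A hyy (val_mul_lt_right A hW.h₁ hxx))

omit [DecidableEq K] in
/-- An affine point reduces to infinity iff its `x` coordinate is not integral. -/
theorem inE1_some {x y : K} {h : W.toAffine.Nonsingular x y} :
    InE1 A W (.some x y h) ↔ 1 < v x := Iff.rfl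

omit [DecidableEq K] in
theorem InE1.inE0 {P : W.toAffine.Point} (hP : InE1 A W P) : InE0 A W P := by
  rcases P with _ | ⟨x, y, h⟩
  · exact trivial
  · exact inE0_of_one_lt hP

omit [DecidableEq K] in
theorem InE1.neg {P : W.toAffine.Point} (hP : InE1 A W P) : InE1 A W (-P) := by
  rcases P with _ | ⟨x, y, h⟩
  · exact hP
  · exact hP

/-- The points reducing to the point at infinity are closed under addition. -/
theorem InE1.add (hW : IntAt A W) {P Q : W.toAffine.Point} (hP : InE1 A W P)
    (hQ : InE1 A W Q) : InE1 A W (P + Q) := by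
  rcases P with _ | ⟨x₁, y₁, h₁⟩
  · simpa [← Point.zero_def] using hQ
  rcases Q with _ | ⟨x₂, y₂, h₂⟩
  · simpa [← Point.zero_def] using hP
  by_cases hxy : x₁ = x₂ ∧ y₁ = W.toAffine.negY x₂ y₂
  · rw [Point.add_of_Y_eq hxy.1 hxy.2]; exact trivial
  rw [Point.add_some hxy, inE1_some]
  rw [inE1_some] at hP hQ
  by_contra hr
  rw [not_lt] at hr
  set l := W.toAffine.slope x₁ x₂ y₁ y₂ with hldef
  have hR := equation_negAdd h₁.1 h₂.1 hxy
  rw [← hldef] at hR
  set r := W.toAffine.addX x₁ x₂ l with hrdef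
  set t := W.toAffine.negAddY x₁ x₂ y₁ l with htdef
  have ht : t = l * (r - x₁) + y₁ := by rw [htdef, hrdef]; simp [negAddY]
  have ht1 : v t ≤ 1 := val_le_of_monic_quadratic hW hr ((equation_iff ..).1 hR)
  have hne : x₁ ≠ r := fun h => not_le.2 hP (h ▸ hr)
  have h1e := (equation_iff ..).1 h₁.1
  have hRe := (equation_iff ..).1 hR
  have hx₂ : x₂ = l ^ 2 + W.a₁ * l - W.a₂ - r - x₁ := by rw [hrdef, addX]; ring
  have key : (x₁ - r) * ((x₁ - r) * (x₂ - r) - (-(dY W r t) * l - dX W r t)) = 0 := by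
    have hy : y₁ = t + l * (x₁ - r) := by rw [ht]; ring
    rw [hy] at h1e
    rw [hx₂]
    simp only [dX, dY]
    linear_combination h1e - hRe
  have hprod := sub_eq_zero.1 ((mul_eq_zero.1 key).resolve_left (sub_ne_zero.2 hne))
  have big : ∀ z, 1 < v z → v (z - r) = v z := fun z hz =>
    A.valuation.map_sub_eq_of_lt_left (hr.trans_lt hz)
  have hle : v x₁ * v x₂ ≤ max (v l) 1 := by
    rw [← big _ hP, ← big _ hQ, ← map_mul, hprod]
    refine A.valuation.map_sub_le ?_ ((dX_le hW hr ht1).trans (le_max_right _ _))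
    rw [map_mul, A.valuation.map_neg]
    exact (mul_le_of_le_one_left' (dY_le hW hr ht1)).trans (le_max_left _ _)
  have hl : 1 < v l := by
    by_contra hc
    rw [not_lt] at hc
    rw [max_eq_right hc] at hle
    exact not_lt.2 hle (one_lt_mul hP.le hQ)
  rw [max_eq_left hl.le] at hle
  have hsum : v (x₁ + x₂) = v l ^ 2 := by
    rw [show x₁ + x₂ = l ^ 2 + W.a₁ * l + -(W.a₂ + r) by rw [hx₂]; ring]
    exact val_sq_add_of_one_lt A hW.h₁ (val_neg_le A (val_add_le A hW.h₂ hr)) hl
  rcases le_total (v x₁) (v x₂) with h | h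
  · have h2 : v l ^ 2 ≤ v x₂ := hsum.ge.trans (A.valuation.map_add_le h le_rfl)
    exact not_lt.2 ((le_mul_of_one_le_left' hP.le).trans hle)
      ((lt_self_pow₀ hl one_lt_two).trans_le h2)
  · have h2 : v l ^ 2 ≤ v x₁ := hsum.ge.trans (A.valuation.map_add_le le_rfl h)
    exact not_lt.2 ((le_mul_of_one_le_right' hQ.le).trans hle)
      ((lt_self_pow₀ hl one_lt_two).trans_le h2)

/-- The subgroup of points reducing to the point at infinity. -/
def E1 (hW : IntAt A W) : AddSubgroup W.toAffine.Point where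
  carrier := {P : W.toAffine.Point | InE1 A W P}
  zero_mem' := show InE1 A W 0 from trivial
  add_mem' := fun hP hQ => InE1.add hW hP hQ
  neg_mem' := fun hP => InE1.neg hP

/-- Membership in the subgroup of points reducing to infinity. -/
theorem mem_E1 {hW : IntAt A W} {P : W.toAffine.Point} : P ∈ E1 hW ↔ InE1 A W P :=
  ⟨fun h => h, fun h => h⟩

end FLTAgent.ECReduction
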