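import Mathlib.FieldTheory.IsAlgClosed.Basic
import Fermat.Agent.ECReduction.Node

/-!
# The order of a point in the group of components

Small roots of quadratic polynomials over an algebraically closed valued field give a point in each
class on the first branch of a node; consequently, if the constant term has valuation `π ^ (2 h)`,
the points of class `π ^ e`, `1 ≤ e < h`, are killed in `E/E0` by `2 h`
(`Plus.two_mul_smul_inE0`).
-/

namespace FLTAgent.ECReduction

open WeierstrassCurve WeierstrassCurve.Affine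

variable {K : Type*} [Field K] {A : ValuationSubring K} {W : WeierstrassCurve K}

local notation "v" => A.valuation

theorem exists_quadratic_root [IsAlgClosed K] (b c : K) :
    ∃ z₁ z₂ : K, z₁ + z₂ = -b ∧ z₁ * z₂ = c := by
  obtain ⟨z, hz⟩ := IsAlgClosed.exists_root
    (Polynomial.X ^ 2 + Polynomial.C b * Polynomial.X + Polynomial.C c) (by
      rw [← one_mul (Polynomial.X ^ 2), ← Polynomial.C_1]
      rw [Polynomial.degree_quadratic one_ne_zero]; exact two_ne_zero)
  simp [Polynomial.IsRoot] at hz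
  exact ⟨z, -b - z, by ring, by linear_combination -hz⟩

/-- `a z ^ 2 + b z + c` with integral `a`, unit `b` and small `c` has a small root. -/
theorem exists_small_root [IsAlgClosed K] {a b c : K} (ha : v a ≤ 1) (hb : v b = 1)
    (hc : v c < 1) : ∃ z, v z < 1 ∧ a * z ^ 2 + b * z + c = 0 ∧ v z = v c := by
  have hb0 := ne_zero_of_val_eq_one A hb
  suffices h : ∃ z, v z < 1 ∧ a * z ^ 2 + b * z + c = 0 by
    obtain ⟨z, hz, he⟩ := h
    refine ⟨z, hz, he, ?_⟩
    have e : z * (b + a * z) = -c := by linear_combination he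
    have := congrArg v e
    rwa [map_mul, A.valuation.map_neg, A.valuation.map_add_eq_of_lt_left, hb, mul_one] at this
    rw [hb]; exact val_mul_lt_right A ha hz
  by_cases ha0 : a = 0
  · refine ⟨-c / b, val_div_lt A (val_neg_lt A hc) hb, ?_⟩
    rw [ha0]; field_simp; ring
  obtain ⟨z₁, z₂, hs, hp⟩ := exists_quadratic_root (b / a) (c / a)
  have he : ∀ z, z = z₁ ∨ z = z₂ → a * z ^ 2 + b * z + c = 0 := by
    have e1 : a * (z₁ + z₂) = -b := by rw [hs]; field_simp
    have e2 : a * (z₁ * z₂) = c := by rw [hp]; field_simp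
    rintro z (rfl | rfl)
    · linear_combination -e2 + z * e1
    · linear_combination -e2 + z * e1
  by_cases h1 : v z₁ < 1
  · exact ⟨z₁, h1, he _ (.inl rfl)⟩
  refine ⟨z₂, ?_, he _ (.inr rfl)⟩
  by_contra h2
  rw [not_lt] at h1 h2
  have e2 : v a * (v z₁ * v z₂) < 1 := by
    rw [← map_mul, ← map_mul, hp]
    have : a * (c / a) = c := by field_simp
    rwa [this]
  have l1 : v (a * z₁) < 1 := by
    rw [map_mul]
    exact lt_of_le_of_lt (mul_le_mul_right (le_mul_of_one_le_right' h2) _) e2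
  have l2 : v (a * z₂) < 1 := by
    rw [map_mul]
    exact lt_of_le_of_lt (mul_le_mul_right (le_mul_of_one_le_left' h1) _) e2
  have := val_neg_lt A (val_add_lt A l1 l2)
  rw [← mul_add, hs] at this
  rw [show -(a * -(b / a)) = b by field_simp, hb] at this
  exact lt_irrefl _ this

namespace NodeData

variable (nd : NodeData A W)

theorem equation_of_XY {X Y : K} (h : Y * (Y + nd.u * X) = X ^ 3 + nd.c) :
    W.toAffine.Equation (X + nd.r) (Y + nd.t + nd.s * X) := by
  have h1 := nd.eY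
  have h2 := nd.eX
  simp only [dY] at h1
  simp only [dX] at h2
  simp only [u, c] at h
  rw [equation_iff]
  linear_combination h + (Y + nd.s * X) * h1 + X * h2 + X ^ 2 * nd.es

/-- A point of class `1` over a given abscissa. -/
theorem exists_plus_point [IsAlgClosed K] (hΔ : W.Δ ≠ 0) {X : K} (hX : v X < 1)
    (hX0 : X ≠ 0) (hc : v nd.c < v X ^ 2) :
    ∃ (x y : K) (_ : W.toAffine.Nonsingular x y), nd.X x = X ∧ v (nd.Y x y) < v X := by
  obtain ⟨Y₁, Y₂, hs, hp⟩ := exists_quadratic_root (nd.u * X) (-(X ^ 3 + nd.c))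
  obtain ⟨Y, hY, he⟩ : ∃ Y, v Y < v X ∧ Y * (Y + nd.u * X) = X ^ 3 + nd.c := by
    by_cases h1 : v Y₁ < v X
    · exact ⟨Y₁, h1, by linear_combination -hp + Y₁ * hs⟩
    refine ⟨Y₂, ?_, by linear_combination -hp + Y₂ * hs⟩
    by_contra h2
    rw [not_lt] at h1 h2
    have : v X ^ 2 ≤ v (Y₁ * Y₂) := by rw [map_mul, sq]; exact mul_le_mul' h1 h2
    rw [hp, A.valuation.map_neg] at this
    refine not_lt.2 this (A.valuation.map_add_lt ?_ hc)
    rw [map_pow]
    exact pow_lt_pow_right_of_lt_one₀ (A.valuation.pos_iff.2 hX0) hX (by norm_num)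
  exact ⟨_, _, (equation_iff_nonsingular_of_Δ_ne_zero hΔ).1 (nd.equation_of_XY he),
    by simp [NodeData.X], by
      simpa [NodeData.Y, add_sub_cancel_right, add_sub_right_comm] using hY⟩

variable [DecidableEq K]

/-- The multiples of one class on the first branch run through all depths. -/
theorem exists_branch_generator [IsAlgClosed K] (hW : IntAt A W) (hΔ : W.Δ ≠ 0) {π ζ : K}
    (hπ0 : π ≠ 0) (hπ : v π < 1) (hζ : v ζ = 1) (hζ1 : v (ζ - 1) = 1) {h : ℕ} (hh : 2 ≤ h)
    (hc : v nd.c = v π ^ (2 * h)) : ∃ Q : W.toAffine.Point, ∀ n : ℕ, 1 ≤ n → n ≤ h →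
      ∃ T : W.toAffine.Point, (n < h → nd.Plus T (v π ^ n)) ∧ (n = h → nd.Mid T) ∧
        InE0 A W (T - n • Q) := by
  have hw0 : 0 < v π := A.valuation.pos_iff.2 hπ0
  have hc2 : v nd.c < v π ^ 2 := hc ▸ pow_lt_pow_right_of_lt_one₀ hw0 hπ (by omega)
  obtain ⟨x, y, hn, hX, hY⟩ := nd.exists_plus_point hΔ hπ hπ0 hc2
  have hζπ : v (ζ * π) = v π := by rw [map_mul, hζ, one_mul]
  obtain ⟨x', y', hn', hX', hY'⟩ := nd.exists_plus_point hΔ (X := ζ * π) (hζπ ▸ hπ)
    (mul_ne_zero (ne_zero_of_val_eq_one A hζ) hπ0) (hζπ ▸ hc2)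
  set Q : W.toAffine.Point := .some x y hn with hQ
  have hQ1 : nd.Plus Q (v π) := ⟨x, y, hn, rfl, hπ, by rw [hX], hY⟩
  suffices claim : ∀ n : ℕ, 1 ≤ n → n ≤ h → ∃ T : W.toAffine.Point,
      (n < h → nd.Plus T (v π ^ n)) ∧ (n = h → nd.Mid T) ∧ InE0 A W (T - n • Q) ∧
      (n = 1 → T = .some x' y' hn') from
    ⟨Q, fun n hn hnh => (claim n hn hnh).imp fun _ hT => ⟨hT.1, hT.2.1, hT.2.2.1⟩⟩
  intro n hn1
  induction n, hn1 using Nat.le_induction with
  | base =>
    intro _
    refine ⟨.some x' y' hn', fun _ => ⟨x', y', hn', rfl, ?_, ?_, ?_⟩,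
      fun h1 => absurd h1 (by omega), ?_, fun _ => rfl⟩
    · rw [pow_one]; exact hπ
    · rw [hX', hζπ, pow_one]
    · rw [pow_one]; exact hζπ ▸ hY'
    · rw [one_smul]
      exact Plus.sub_inE0 nd hW ⟨x', y', hn', rfl, hπ, by rw [hX', hζπ], hζπ ▸ hY'⟩ hQ1
  | succ n hn1 ih =>
    intro hle
    obtain ⟨T, hT, -, hTE, hTb⟩ := ih (by omega)
    obtain ⟨x₂, y₂, h₂, rfl, -, hX₂, hY₂⟩ := hT (by omega)
    have hd : v (nd.X x - nd.X x₂) = v π := by
      rcases eq_or_lt_of_le hn1 with rfl | hlt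
      · obtain ⟨rfl, rfl⟩ := Point.some.injEq .. |>.mp (hTb rfl)
        rw [hX, hX', A.valuation.map_sub_swap, show ζ * π - π = (ζ - 1) * π by ring, map_mul,
          hζ1, one_mul]
      · rw [A.valuation.map_sub_eq_of_lt_left, hX]
        rw [hX₂, hX]
        exact (pow_lt_pow_right_of_lt_one₀ hw0 hπ hlt).trans_le (pow_one _).le
    have hadd := nd.plus_add_plus hw0 hπ hc hn1 hle (h₁ := hn) (h₂ := h₂) (by rw [hX]) hY
      hX₂ hY₂ hd
    refine ⟨Q + .some x₂ y₂ h₂, ?_, ?_, ?_, fun h1 => absurd h1 (by omega)⟩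
    · intro hlt
      rcases hadd with ⟨-, h⟩ | ⟨h, -⟩
      · exact h
      · omega
    · intro heq
      rcases hadd with ⟨h, -⟩ | ⟨-, h⟩
      · omega
      · exact h
    · rw [add_smul, one_smul]
      have : Q + Point.some x₂ y₂ h₂ - (n • Q + Q) = Point.some x₂ y₂ h₂ - n • Q := by abel
      rwa [this]

/-- The group of components has order dividing `2 h` on the classes with integral valuation. -/
theorem Plus.two_mul_smul_inE0 [IsAlgClosed K] (hW : IntAt A W) (hΔ : W.Δ ≠ 0) {π ζ : K}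
    (hπ0 : π ≠ 0) (hπ : v π < 1) (hζ : v ζ = 1) (hζ1 : v (ζ - 1) = 1) {h : ℕ}
    (hc : v nd.c = v π ^ (2 * h)) {P : W.toAffine.Point} {e : ℕ} (he : 1 ≤ e) (heh : e < h)
    (hP : nd.Plus P (v π ^ e)) : InE0 A W ((2 * h) • P) := by
  obtain ⟨Q, claim⟩ := nd.exists_branch_generator hW hΔ hπ0 hπ hζ hζ1 (by omega) hc
  obtain ⟨M, -, hM, hME⟩ := claim h (by omega) le_rfl
  obtain ⟨T, hT, -, hTE⟩ := claim e he heh.le
  have h2Q : InE0 A W ((2 * h) • Q) := by
    have : (2 * h) • Q = (M + M) - ((M - h • Q) + (M - h • Q)) := by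
      rw [mul_comm, mul_smul, two_smul, smul_add]; abel
    rw [this]; exact ((hM rfl).two_inE0 nd hW).sub hW (hME.add hW hME)
  have hPE : InE0 A W (P - e • Q) := by
    have : P - e • Q = (P - T) + (T - e • Q) := by abel
    rw [this]; exact (Plus.sub_inE0 nd hW hP (hT heh)).add hW hTE
  have : (2 * h) • P = (2 * h) • (P - e • Q) + e • ((2 * h) • Q) := by
    rw [smul_sub, smul_comm e]; abel
  rw [this, ← mem_E0 (hW := hW)]
  exact add_mem (nsmul_mem (mem_E0.2 hPE) _) (nsmul_mem (mem_E0.2 h2Q) _)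

end NodeData

end FLTAgent.ECReduction
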