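import Mathlib.AlgebraicGeometry.EllipticCurve.DivisionPolynomial.Degree
import Fermat.Agent.ECReduction.Basic

/-!
# Non-integral abscissae of torsion points

Read off the division polynomial: the leading coefficient times any product of non-integral roots
of an integral polynomial is integral.  Hence odd torsion of order invertible at `A` has integral
abscissa (`val_x_le_of_torsion`), and a saturated set of non-integral abscissae is complete
(`mem_of_saturated`).
-/

namespace FLTAgent.ECReduction

open Polynomial WeierstrassCurve WeierstrassCurve.Affine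

variable {K : Type*} [Field K] {A : ValuationSubring K} {W : WeierstrassCurve K}

local notation "v" => A.valuation

/-- Dividing an integral polynomial by `X - x` with `x` not integral: the quotient times `x` is
still integral. -/
theorem val_coeff_mul_le {g : K[X]} {x : K} (hx : 1 < v x)
    (hf : ∀ i, v (((X - C x) * g).coeff i) ≤ 1) (i : ℕ) : v (x * g.coeff i) ≤ 1 := by
  induction i with
  | zero =>
    have := hf 0
    simp [mul_coeff_zero] at this
    simpa using this
  | succ i ih =>
    have h1 : v (g.coeff i) ≤ 1 := by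
      rw [map_mul] at ih
      exact le_trans (le_mul_of_one_le_left' hx.le) ih
    have h2 := hf (i + 1)
    rw [sub_mul, coeff_sub, coeff_X_mul, coeff_C_mul] at h2
    rw [show x * g.coeff (i + 1) = g.coeff i - (g.coeff i - x * g.coeff (i + 1)) by ring]
    exact val_sub_le A h1 h2

theorem val_leadingCoeff_mul_prod_le (S : Finset K) (hS : ∀ x ∈ S, 1 < v x) :
    ∀ f : K[X], (∀ i, v (f.coeff i) ≤ 1) → (∀ x ∈ S, f.eval x = 0) →
      v f.leadingCoeff * ∏ x ∈ S, v x ≤ 1 := by
  classical
  induction S using Finset.induction with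
  | empty =>
    intro f hf _
    rw [Finset.prod_empty, mul_one]
    exact hf _
  | insert a S ha ih =>
    intro f hf hroot
    obtain ⟨g, rfl⟩ := dvd_iff_isRoot.2 (hroot a (Finset.mem_insert_self a S))
    have hax := hS a (Finset.mem_insert_self a S)
    have := ih (fun x hx => hS x (Finset.mem_insert_of_mem hx)) (C a * g)
      (fun i => by rw [coeff_C_mul]; exact val_coeff_mul_le hax hf i) (fun x hx => by
        have h := hroot x (Finset.mem_insert_of_mem hx)
        rw [eval_mul, eval_sub, eval_X, eval_C, mul_eq_zero] at h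
        rw [eval_mul, h.resolve_left (sub_ne_zero.2 (ne_of_mem_of_not_mem hx ha)), mul_zero])
    rw [leadingCoeff_mul, leadingCoeff_C, map_mul] at this
    rw [leadingCoeff_mul, leadingCoeff_X_sub_C, one_mul, Finset.prod_insert ha]
    calc v g.leadingCoeff * (v a * ∏ x ∈ S, v x)
        = v a * v g.leadingCoeff * ∏ x ∈ S, v x := by ac_rfl
      _ ≤ 1 := this

/-- Abscissae of points killed by `n` are roots of the division polynomial. -/
def PsiVanish (W : WeierstrassCurve K) [DecidableEq K] (n : ℕ) : Prop :=
  ∀ x y (h : W.toAffine.Nonsingular x y), n • (Point.some x y h : W.toAffine.Point) = 0 →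
    (W.preΨ' n).eval x = 0

/-- The coefficients of the division polynomials of an integral curve are integral. -/
theorem val_coeff_preΨ'_le (hW : IntAt A W) (n i : ℕ) : v ((W.preΨ' n).coeff i) ≤ 1 := by
  let W₀ : WeierstrassCurve A := ⟨⟨_, (val_le_iff A).1 hW.h₁⟩, ⟨_, (val_le_iff A).1 hW.h₂⟩,
    ⟨_, (val_le_iff A).1 hW.h₃⟩, ⟨_, (val_le_iff A).1 hW.h₄⟩, ⟨_, (val_le_iff A).1 hW.h₆⟩⟩
  have : W = W₀.map A.subtype := by ext <;> rfl
  rw [this, map_preΨ', coeff_map]
  exact (val_le_iff A).2 (SetLike.coe_mem _)

theorem val_n_mul_prod_le (hW : IntAt A W) {n : ℕ} (hn : (n : K) ≠ 0) (hodd : Odd n)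
    (S : Finset K) (hS : ∀ x ∈ S, 1 < v x) (hr : ∀ x ∈ S, (W.preΨ' n).eval x = 0) :
    v (n : K) * ∏ x ∈ S, v x ≤ 1 := by
  have h := val_leadingCoeff_mul_prod_le S hS _ (val_coeff_preΨ'_le hW n) hr
  rwa [W.leadingCoeff_preΨ' hn, if_neg (Nat.not_even_iff_odd.2 hodd)] at h

variable [DecidableEq K] in
/-- A point killed by an odd `n` invertible at `A` has integral abscissa. -/
theorem val_x_le_of_torsion (hW : IntAt A W) {n : ℕ} (hn : v (n : K) = 1) (hodd : Odd n)
    (hψ : PsiVanish W n) {x y : K} {h : W.toAffine.Nonsingular x y}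
    (hP : n • (Point.some x y h : W.toAffine.Point) = 0) : v x ≤ 1 := by
  by_contra hx
  rw [not_le] at hx
  have := val_n_mul_prod_le hW (ne_zero_of_val_eq_one A hn) hodd {x} (by simpa using hx)
    (by simpa using hψ x y h hP)
  rw [hn, one_mul, Finset.prod_singleton] at this
  exact not_le.2 hx this

theorem mem_of_saturated (hW : IntAt A W) {n : ℕ} (hn : (n : K) ≠ 0) (hodd : Odd n)
    {S : Finset K} (hS : ∀ x ∈ S, 1 < v x) (hr : ∀ x ∈ S, (W.preΨ' n).eval x = 0)
    (hsat : v (n : K) * ∏ x ∈ S, v x = 1) {x : K} (hx : 1 < v x)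
    (hxr : (W.preΨ' n).eval x = 0) : x ∈ S := by
  classical
  by_contra hc
  have := val_n_mul_prod_le hW hn hodd (insert x S) (by simpa [hx] using hS)
    (by simpa [hxr] using hr)
  rw [Finset.prod_insert hc, mul_left_comm, hsat, mul_one] at this
  exact not_le.2 hx this

end FLTAgent.ECReduction
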