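import Mathlib.Algebra.Field.ZMod
import Mathlib.RingTheory.Multiplicity
import Fermat.Prelude.Def_FLTPrelim_Ramification
import Fermat.Agent.Density.Inertia
import Fermat.Agent.ECReduction.Inertia
import Fermat.Agent.ECReduction.Multiple
import Fermat.Agent.ECReduction.Torsion

/-!
# The Frey curve at a valuation subring of `ℚ̄`

`FE` is the Frey curve over `ℚ̄`: it is integral, has good reduction or a node at odd primes
(`good_or_node`) and a node with explicit depth at `2` (`node_two`); hence it has no rational point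
of order `p` (`no_rational_torsion`).
-/

set_option autoImplicit false

noncomputable section

open WeierstrassCurve WeierstrassCurve.Affine FLTAgent.Density
open scoped WeierstrassCurve.Affine

namespace FLTAgent.ECReduction

section Values

variable {A : ValuationSubring Qbar} {q : ℕ}

local notation "v" => A.valuation

theorem val_prime_lt (hA : A.LiesOverPrime q) : v (q : Qbar) < 1 := A.mem_nonunits_iff.1 hA

/-- An integer prime to `q` has valuation `1` at a place over `q`. -/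
theorem val_int_eq_one (hq : q.Prime) (hA : A.LiesOverPrime q) {n : ℤ} (hn : ¬ (q : ℤ) ∣ n) :
    v (n : Qbar) = 1 :=
  le_antisymm (val_intCast_le A n)
    (not_lt.1 fun h => intCast_notMem_nonunits hq hA hn (A.mem_nonunits_iff.2 h))

/-- A natural number prime to `q` has valuation `1` at a place over `q`. -/
theorem val_nat_eq_one (hq : q.Prime) (hA : A.LiesOverPrime q) {n : ℕ} (hn : ¬ q ∣ n) :
    v (n : Qbar) = 1 := by
  have := val_int_eq_one hq hA (n := (n : ℤ)) (by exact_mod_cast hn)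
  rwa [Int.cast_natCast] at this

/-- An integer divisible by `q` has valuation `< 1` at a place over `q`. -/
theorem val_int_lt (hA : A.LiesOverPrime q) {n : ℤ} (hn : (q : ℤ) ∣ n) :
    v (n : Qbar) < 1 := by
  obtain ⟨m, rfl⟩ := hn
  push_cast
  exact val_mul_lt_left A (val_prime_lt hA) (val_intCast_le A m)

theorem exists_val_int_eq_pow (hq : q.Prime) (hA : A.LiesOverPrime q) {n : ℤ} (hn : n ≠ 0) :
    ∃ (e : ℕ) (m : ℤ), n = (q : ℤ) ^ e * m ∧ ¬ (q : ℤ) ∣ m ∧
      v (n : Qbar) = v (q : Qbar) ^ e := by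
  have hfin : FiniteMultiplicity (q : ℤ) n :=
    Int.finiteMultiplicity_iff.2 ⟨by simpa using hq.ne_one, hn⟩
  obtain ⟨m, he, hm⟩ := hfin.exists_eq_pow_mul_and_not_dvd
  refine ⟨_, m, he, hm, ?_⟩
  conv_lhs => rw [he]
  push_cast
  rw [map_mul, map_pow, val_int_eq_one hq hA hm, mul_one]

theorem exists_val_rat_eq_zpow (hq : q.Prime) (hA : A.LiesOverPrime q) {r : ℚ} (hr : r ≠ 0) :
    ∃ e : ℤ, v (r : Qbar) = v (q : Qbar) ^ e := by
  obtain ⟨a, -, -, -, ha⟩ := exists_val_int_eq_pow hq hA (Rat.num_ne_zero.2 hr)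
  obtain ⟨b, -, -, -, hb⟩ := exists_val_int_eq_pow hq hA (n := (r.den : ℤ)) (by simp [r.den_nz])
  refine ⟨(a : ℤ) - b, ?_⟩
  rw [Int.cast_natCast] at hb
  rw [zpow_sub₀ (A.valuation.ne_zero_iff.2 (by exact_mod_cast hq.ne_zero)), zpow_natCast,
    zpow_natCast, ← ha, ← hb, ← map_div₀, ← Rat.cast_intCast, ← Rat.cast_natCast, ← Rat.cast_div,
    Rat.num_div_den]

/-- At `2` a rational integral number reduces to `0` or to `1`. -/
theorem val_rat_lt_or_sub_one_lt (hA : A.LiesOverPrime 2) {r : ℚ} (hr : v (r : Qbar) ≤ 1) :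
    v (r : Qbar) < 1 ∨ v ((r : Qbar) - 1) < 1 := by
  have hden : ¬ (2 : ℤ) ∣ (r.den : ℤ) := by
    intro hd
    have hnum : ¬ (2 : ℤ) ∣ r.num := fun hn => by
      have h1 : 2 ∣ r.num.natAbs := Int.natCast_dvd.1 hn
      have := Nat.dvd_gcd h1 (Int.natCast_dvd_natCast.1 hd)
      rw [r.reduced] at this
      exact absurd this (by norm_num)
    have e : (r : Qbar) * (r.den : Qbar) = (r.num : Qbar) := by exact_mod_cast Rat.mul_den_eq_num r
    have h2 := congrArg v e
    rw [map_mul, val_int_eq_one Nat.prime_two hA hnum] at h2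
    have h3 : v (r.den : Qbar) < 1 := by
      have := val_int_lt hA (n := (r.den : ℤ)) (by exact_mod_cast hd)
      rwa [Int.cast_natCast] at this
    exact (lt_of_le_of_lt (mul_le_of_le_one_left' hr) h3).ne h2
  have hd1 : v (r.den : Qbar) = 1 := by
    have := val_int_eq_one Nat.prime_two hA hden
    rwa [Int.cast_natCast] at this
  have e : (r : Qbar) = (r.num : Qbar) / (r.den : Qbar) := by rw [Rat.cast_def]
  rcases Int.emod_two_eq_zero_or_one r.num with h | h
  · left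
    rw [e]
    exact val_div_lt A (val_int_lt hA (Int.dvd_of_emod_eq_zero h)) hd1
  · right
    rw [e, div_sub_one (ne_zero_of_val_eq_one A hd1)]
    refine val_div_lt A ?_ hd1
    have := val_int_lt hA (n := r.num - r.den) (q := 2) (by omega)
    push_cast at this
    exact this

end Values

section Frey

variable (P : FreyPackage)

/-- The integer `a₂` of the Frey curve. -/
theorem exists_a₂ : ∃ a₂ : ℤ, 4 * a₂ = P.b ^ P.p - 1 - P.a ^ P.p := by
  obtain ⟨b', hb'⟩ := (ZMod.intCast_zmod_eq_zero_iff_dvd P.b 2).1 P.hb2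
  have h4b : (4 : ℤ) ∣ P.b ^ P.p := by
    have : (4 : ℤ) ∣ (2 : ℤ) ^ P.p :=
      (show (4 : ℤ) = 2 ^ 2 by norm_num) ▸ pow_dvd_pow 2 (by have := P.hp5; omega)
    rw [hb', mul_pow]
    exact this.mul_right _
  have h4a : (4 : ℤ) ∣ 1 + P.a ^ P.p := by
    apply (ZMod.intCast_zmod_eq_zero_iff_dvd _ 4).1
    push_cast
    rw [P.ha4]
    obtain ⟨k, hk⟩ := P.hp_odd
    rw [hk, pow_succ, pow_mul, show ((3 : ZMod 4) ^ 2) = 1 from rfl, one_pow, one_mul]
    rfl
  exact ⟨(P.b ^ P.p - (1 + P.a ^ P.p)) / 4, by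
    rw [Int.mul_ediv_cancel' (dvd_sub h4b h4a)]; ring⟩

/-- The integer `a₄` of the Frey curve. -/
theorem exists_a₄ : ∃ a₄ : ℤ, 16 * a₄ = -(P.a ^ P.p * P.b ^ P.p) := by
  obtain ⟨b', hb'⟩ := (ZMod.intCast_zmod_eq_zero_iff_dvd P.b 2).1 P.hb2
  refine ⟨-(P.a ^ P.p * b' ^ P.p * 2 ^ (P.p - 4)), ?_⟩
  rw [hb', mul_pow, show ((2 : ℕ) : ℤ) ^ P.p = 16 * 2 ^ (P.p - 4) by
    rw [show (16 : ℤ) = 2 ^ 4 by norm_num, ← pow_add, Nat.cast_ofNat]
    congr 1; have := P.hp5; omega]
  ring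

/-- The Frey curve over `ℚbar`. -/
abbrev FE : WeierstrassCurve Qbar := (P.freyCurve⁄Qbar)

variable {P}

theorem coeffs_eq {a₂ a₄ : ℤ} (h₂ : 4 * a₂ = P.b ^ P.p - 1 - P.a ^ P.p)
    (h₄ : 16 * a₄ = -(P.a ^ P.p * P.b ^ P.p)) :
    (FE P).a₁ = 1 ∧ (FE P).a₂ = (a₂ : Qbar) ∧ (FE P).a₃ = 0 ∧ (FE P).a₄ = (a₄ : Qbar) ∧
      (FE P).a₆ = 0 := by
  have e₂ : P.freyCurve.a₂ = (a₂ : ℚ) := by
    have := congrArg (Int.cast : ℤ → ℚ) h₂
    push_cast at this
    simp only [FreyPackage.freyCurve]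
    linear_combination (-1 / 4 : ℚ) * this
  have e₄ : P.freyCurve.a₄ = (a₄ : ℚ) := by
    have := congrArg (Int.cast : ℤ → ℚ) h₄
    push_cast at this
    simp only [FreyPackage.freyCurve]
    linear_combination (-1 / 16 : ℚ) * this
  refine ⟨?_, ?_, ?_, ?_, ?_⟩ <;>
    simp [FE, Affine.baseChange, WeierstrassCurve.baseChange, e₂, e₄] <;>
    simp [FreyPackage.freyCurve]

theorem Δ_ne_zero : (FE P).Δ ≠ 0 := by
  obtain ⟨a₂, h₂⟩ := exists_a₂ P
  obtain ⟨a₄, h₄⟩ := exists_a₄ P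
  obtain ⟨c₁, c₂, c₃, c₄, c₆⟩ := coeffs_eq h₂ h₄
  have h₂' := congrArg (Int.cast : ℤ → Qbar) h₂
  have h₄' := congrArg (Int.cast : ℤ → Qbar) h₄
  have hF := congrArg (Int.cast : ℤ → Qbar) P.hFLT
  push_cast at h₂' h₄' hF
  have e : (FE P).Δ = (a₄ : Qbar) ^ 2 * ((P.c : Qbar) ^ P.p) ^ 2 := by
    simp only [WeierstrassCurve.Δ, WeierstrassCurve.b₂, WeierstrassCurve.b₄, WeierstrassCurve.b₆,
      WeierstrassCurve.b₈, c₁, c₂, c₃, c₄, c₆]
    rw [← hF]
    linear_combination (a₄ : Qbar) ^ 2 *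
      ((4 * (a₂ : Qbar) + 1 + ((P.b : Qbar) ^ P.p - (P.a : Qbar) ^ P.p)) * h₂' - 4 * h₄')
  rw [e]
  refine mul_ne_zero (pow_ne_zero 2 ?_) (pow_ne_zero 2 (pow_ne_zero _ (Int.cast_ne_zero.2 P.hc0)))
  intro h0
  have : a₄ = 0 := Int.cast_eq_zero.1 h0
  rw [this, mul_zero, eq_comm, neg_eq_zero] at h₄
  exact mul_ne_zero (pow_ne_zero _ P.ha0) (pow_ne_zero _ P.hb0) h₄

variable {A : ValuationSubring Qbar}

local notation "v" => A.valuation

/-- The Frey equation is integral at every place. -/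
theorem intAt_frey : IntAt A (FE P) := by
  obtain ⟨a₂, h₂⟩ := exists_a₂ P
  obtain ⟨a₄, h₄⟩ := exists_a₄ P
  obtain ⟨c₁, c₂, c₃, c₄, c₆⟩ := coeffs_eq h₂ h₄
  exact ⟨c₁ ▸ val_one_le A, c₂ ▸ val_intCast_le A _, c₃ ▸ val_zero_le A,
    c₄ ▸ val_intCast_le A _, c₆ ▸ val_zero_le A⟩

/-- At an odd residue characteristic the Frey curve has good reduction or a node. -/
theorem good_or_node {q : ℕ} (hq : q.Prime) (hq2 : q ≠ 2) (hA : A.LiesOverPrime q) :
    (∀ x y : Qbar, (FE P).toAffine.Equation x y → ¬ ResSingular A (FE P) x y) ∨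
      Nonempty (NodeData A (FE P)) := by
  obtain ⟨a₂, h₂⟩ := exists_a₂ P
  obtain ⟨a₄, h₄⟩ := exists_a₄ P
  obtain ⟨c₁, c₂, c₃, c₄, c₆⟩ := coeffs_eq h₂ h₄
  have h₂' := congrArg (Int.cast : ℤ → Qbar) h₂
  have h₄' := congrArg (Int.cast : ℤ → Qbar) h₄
  have hF := congrArg (Int.cast : ℤ → Qbar) P.hFLT
  push_cast at h₂' h₄' hF
  have hqi := Nat.prime_iff_prime_int.mp hq
  have h2 : v (2 : Qbar) = 1 := by
    have := val_nat_eq_one hq hA (n := 2)
      fun h => hq2 ((Nat.prime_dvd_prime_iff_eq hq Nat.prime_two).1 h)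
    exact_mod_cast this
  have h2' : (2 : Qbar) ≠ 0 := two_ne_zero
  have h4 : v (4 : Qbar) = 1 := by
    rw [show (4 : Qbar) = 2 * 2 by norm_num]; exact val_mul_eq_one A h2 h2
  have unit : ∀ n : ℤ, ¬ (q : ℤ) ∣ n → v ((n : Qbar) ^ P.p) = 1 := fun n hn => by
    rw [map_pow, val_int_eq_one hq hA hn, one_pow]
  have small : ∀ n : ℤ, (q : ℤ) ∣ n → v ((n : Qbar) ^ P.p) < 1 := fun n hn =>
    val_pow_lt A (val_int_lt hA hn) P.hp0
  have cop : ∀ {x y : ℤ}, gcd x y = 1 → (q : ℤ) ∣ x → ¬(q : ℤ) ∣ y := fun hg hx hy =>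
    hqi.not_dvd_one (hg ▸ dvd_gcd hx hy)
  set α : Qbar := (P.a : Qbar) ^ P.p with hα
  set β : Qbar := (P.b : Qbar) ^ P.p with hβ
  have hα1 : v α ≤ 1 := val_pow_le A (val_intCast_le A _) _
  have hβ1 : v β ≤ 1 := val_pow_le A (val_intCast_le A _) _
  by_cases hgood : ¬ (q : ℤ) ∣ P.a * P.b * P.c
  · left
    intro x y hxy hs
    obtain ⟨hx, hy, hX, hY⟩ := hs
    simp only [dX, c₁, c₂, c₄] at hX
    simp only [dY, c₁, c₃] at hY
    rw [equation_iff, c₁, c₂, c₃, c₄, c₆] at hxy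
    have ha : v α = 1 := unit _ fun h => hgood (dvd_mul_of_dvd_left (dvd_mul_of_dvd_left h _) _)
    have hb : v β = 1 := unit _ fun h => hgood (dvd_mul_of_dvd_left (dvd_mul_of_dvd_right h _) _)
    have hc : v (α + β) = 1 := by rw [hF]; exact unit _ fun h => hgood (dvd_mul_of_dvd_right h _)
    set z := 4 * x with hz
    have hz1 : v z ≤ 1 := val_mul_le A h4.le hx
    have hg : v (z * (z - α) * (z + β)) < 1 := by
      rw [show z * (z - α) * (z + β) = 4 * (2 * y + x) ^ 2 * 4 by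
        rw [hz]; linear_combination (-64) * hxy + 16 * x ^ 2 * (-h₂') + 4 * x * (-h₄')]
      exact val_mul_lt_left A (val_mul_lt_right A h4.le (val_pow_lt A (by simpa using hY)
        two_ne_zero)) h4.le
    have hg' : v (3 * z ^ 2 + 2 * (β - α) * z - α * β) < 1 := by
      rw [show 3 * z ^ 2 + 2 * (β - α) * z - α * β
          = 8 * (2 * y + x) - 16 * (y - (3 * x ^ 2 + 2 * (a₂ : Qbar) * x + (a₄ : Qbar))) by
        rw [hz]; linear_combination (-8) * x * h₂' - h₄']
      refine val_sub_lt A (val_mul_lt_right A (val_ofNat_le A 8) (by simpa using hY))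
        (val_mul_lt_right A (val_ofNat_le A 16) (by simpa using hX))
    rcases val_lt_one_or_of_mul_lt A hg with h | h
    · rcases val_lt_one_or_of_mul_lt A h with h | h
      · have h1 : v (α * β) < 1 := by
          rw [show α * β =
              (3 * z + 2 * (β - α)) * z - (3 * z ^ 2 + 2 * (β - α) * z - α * β) by ring]
          exact val_sub_lt A (val_mul_lt_right A (val_add_le A (val_mul_le A (val_ofNat_le A 3) hz1)
            (val_mul_le A h2.le (val_sub_le A hβ1 hα1))) h) hg'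
        exact h1.ne (val_mul_eq_one A ha hb)
      · have h1 : v (α * (α + β)) < 1 := by
          rw [show α * (α + β) = (3 * z ^ 2 + 2 * (β - α) * z - α * β)
            - (3 * (z + α) + 2 * (β - α)) * (z - α) by ring]
          exact val_sub_lt A hg' (val_mul_lt_right A (val_add_le A (val_mul_le A (val_ofNat_le A 3)
            (val_add_le A hz1 hα1)) (val_mul_le A h2.le (val_sub_le A hβ1 hα1))) h)
        exact h1.ne (val_mul_eq_one A ha hc)
    · have h1 : v (β * (α + β)) < 1 := by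
        rw [show β * (α + β) = (3 * z ^ 2 + 2 * (β - α) * z - α * β)
          - (3 * (z - β) + 2 * (β - α)) * (z + β) by ring]
        exact val_sub_lt A hg' (val_mul_lt_right A (val_add_le A (val_mul_le A (val_ofNat_le A 3)
          (val_sub_le A hz1 hβ1)) (val_mul_le A h2.le (val_sub_le A hβ1 hα1))) h)
      exact h1.ne (val_mul_eq_one A hb hc)
  · right
    rw [not_not] at hgood
    -- the residue `z₀ / 4` of the node
    obtain ⟨z₀, hz₀, hroot, hd, hd'⟩ : ∃ z₀ : Qbar, v z₀ ≤ 1 ∧ z₀ * (z₀ - α) * (z₀ + β) = 0 ∧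
        v (3 * z₀ + (β - α)) = 1 ∧ v (3 * z₀ ^ 2 + 2 * (β - α) * z₀ - α * β) < 1 := by
      rcases hqi.dvd_or_dvd hgood with h | hc
      · refine ⟨0, val_zero_le A, by ring, ?_, ?_⟩
        · rw [mul_zero, zero_add]
          rcases hqi.dvd_or_dvd h with ha | hb
          · rw [A.valuation.map_sub_eq_of_lt_left]
            · exact unit _ (cop P.hgcdab ha)
            · rw [unit _ (cop P.hgcdab ha)]; exact small _ ha
          · have hna : ¬ (q : ℤ) ∣ P.a := fun ha => cop P.hgcdab ha hb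
            rw [A.valuation.map_sub_eq_of_lt_right]
            · exact unit _ hna
            · rw [unit _ hna]; exact small _ hb
        · rw [show 3 * (0 : Qbar) ^ 2 + 2 * (β - α) * 0 - α * β = -(α * β) by ring,
            A.valuation.map_neg]
          rcases hqi.dvd_or_dvd h with ha | hb
          · exact val_mul_lt_left A (small _ ha) hβ1
          · exact val_mul_lt_right A hα1 (small _ hb)
      · have hna : ¬ (q : ℤ) ∣ P.a := fun ha => cop P.hgcdac ha hc
        have hsum : v (α + β) < 1 := hF ▸ small _ hc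
        refine ⟨α, hα1, by ring, ?_, ?_⟩
        · rw [show 3 * α + (β - α) = α + (α + β) by ring, A.valuation.map_add_eq_of_lt_left]
          · exact unit _ hna
          · rw [unit _ hna]; exact hsum
        · rw [show 3 * α ^ 2 + 2 * (β - α) * α - α * β = α * (α + β) by ring]
          exact val_mul_lt_right A hα1 hsum
    set r₀ := z₀ / 4 with hr₀
    have hr₀1 : v r₀ ≤ 1 := val_div_le A hz₀ h4
    have e₀ : z₀ = 4 * r₀ := by rw [hr₀]; field_simp
    obtain ⟨ρ, hρ, hρe, -⟩ := exists_small_root (A := A) (a := (12 : Qbar))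
      (b := 2 * (3 * z₀ + (β - α))) (c := (3 * z₀ ^ 2 + 2 * (β - α) * z₀ - α * β) / 4)
      (val_ofNat_le A 12) (val_mul_eq_one A h2 hd) (val_div_lt A hd' h4)
    set r := r₀ + ρ with hr
    have hr1 : v r ≤ 1 := val_add_le A hr₀1 hρ.le
    set t := -r / 2 with ht
    obtain ⟨s, s', hss, hsp⟩ := exists_quadratic_root (1 : Qbar) (-((a₂ : Qbar) + 3 * r))
    have hs : s ^ 2 + 1 * s + -((a₂ : Qbar) + 3 * r) = 0 := by
      linear_combination s * hss - hsp
    have hs1 : v s ≤ 1 := val_le_of_quadratic (val_one_le A)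
      (val_neg_le A (val_add_le A (val_intCast_le A _) (val_mul_le A (val_ofNat_le A 3) hr1))) hs
    have hcrit : 12 * r ^ 2 + 2 * (β - α) * r + 4 * (a₄ : Qbar) = 0 := by
      rw [hr]
      field_simp at hρe
      rw [e₀] at hρe
      linear_combination (1 / 4 : Qbar) * hρe + (1 / 4 : Qbar) * h₄'
    refine ⟨⟨r, t, s, hr1, val_div_le A (val_neg_le A hr1) h2, hs1, ?_, ?_, ?_, ?_, ?_⟩⟩
    · simp only [dY, c₁, c₃, ht]; ring
    · simp only [dX, c₁, c₂, c₄, ht]
      linear_combination (-1 / 4 : Qbar) * hcrit - (r / 2) * h₂'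
    · rw [c₁, c₂]; linear_combination hs
    · rw [c₁]
      have hu : v ((1 + 2 * s) ^ 2) = 1 := by
        refine val_eq_one_of_sub_lt A hd ?_
        rw [show (1 + 2 * s) ^ 2 - (3 * z₀ + (β - α)) = 12 * ρ by
          rw [e₀]; linear_combination 4 * hs + h₂' + 12 * hr]
        exact val_mul_lt_right A (val_ofNat_le A 12) hρ
      rw [map_pow] at hu
      exact (pow_eq_one_iff_of_nonneg zero_le two_ne_zero).1 hu
    · rw [c₁, c₂, c₃, c₄, c₆]
      have e : r ^ 3 + (a₂ : Qbar) * r ^ 2 + (a₄ : Qbar) * r + 0 - t ^ 2 - 1 * r * t - 0 * t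
          = ((4 * r) * (4 * r - α) * (4 * r + β) - z₀ * (z₀ - α) * (z₀ + β)) / (4 * 4 * 4) := by
        rw [hroot, ht]
        linear_combination (r ^ 2 / 4) * h₂' + (r / 16) * h₄'
      rw [e]
      refine val_div_lt A ?_ (val_mul_eq_one A (val_mul_eq_one A h4 h4) h4)
      rw [show 4 * r * (4 * r - α) * (4 * r + β) - z₀ * (z₀ - α) * (z₀ + β)
        = 4 * ρ * ((4 * r) ^ 2 + 4 * r * z₀ + z₀ ^ 2 + (β - α) * (4 * r + z₀) - α * β) by
        rw [e₀, hr]; ring]
      have h4r : v (4 * r) ≤ 1 := val_mul_le A h4.le hr1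
      exact val_mul_lt_left A (val_mul_lt_right A h4.le hρ)
        (val_sub_le A (val_add_le A (val_add_le A (val_add_le A (val_pow_le A h4r 2)
          (val_mul_le A h4r hz₀)) (val_pow_le A hz₀ 2))
          (val_mul_le A (val_sub_le A hβ1 hα1) (val_add_le A h4r hz₀))) (val_mul_le A hα1 hβ1))

/-- The node at `2`, with the valuation of its constant term. -/
theorem node_two (hA : A.LiesOverPrime 2) :
    ∃ (nd : NodeData A (FE P)) (h : ℕ), 1 ≤ h ∧ ¬ P.p ∣ 2 * h ∧
      v nd.c = v (2 : Qbar) ^ (2 * h) ∧ v nd.r < v (2 : Qbar) ^ h := by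
  obtain ⟨a₂, h₂⟩ := exists_a₂ P
  obtain ⟨a₄, h₄⟩ := exists_a₄ P
  obtain ⟨c₁, c₂, c₃, c₄, c₆⟩ := coeffs_eq h₂ h₄
  have hb2 : (2 : ℤ) ∣ P.b := (ZMod.intCast_zmod_eq_zero_iff_dvd P.b 2).1 P.hb2
  have ha : ¬ (2 : ℤ) ∣ P.a := fun h => by
    have := dvd_gcd h hb2
    rw [P.hgcdab] at this
    omega
  obtain ⟨k, b', hbk, hb', hbv⟩ := exists_val_int_eq_pow Nat.prime_two hA P.hb0
  have hk : 1 ≤ k := by
    rcases Nat.eq_zero_or_pos k with rfl | hk
    · rw [pow_zero, one_mul] at hbk; exact absurd (hbk ▸ hb2) hb'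
    · exact hk
  have h2v : v (2 : Qbar) < 1 := by simpa using val_prime_lt hA
  have h20 : 0 < v (2 : Qbar) := A.valuation.pos_iff.2 two_ne_zero
  have hp5 := P.hp5
  have hpk : 5 ≤ P.p * k := hp5.trans (Nat.le_mul_of_pos_right _ hk)
  have ha4v : v (a₄ : Qbar) = v (2 : Qbar) ^ (P.p * k - 4) := by
    have h₄' := congrArg (Int.cast : ℤ → Qbar) h₄
    push_cast at h₄'
    have := congrArg v h₄'
    rw [map_mul, A.valuation.map_neg, map_mul, map_pow, map_pow,
      val_int_eq_one Nat.prime_two hA ha, one_pow, one_mul, hbv,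
      show (16 : Qbar) = 2 ^ 4 by norm_num, map_pow, ← pow_mul, mul_comm k] at this
    push_cast at this
    apply mul_left_cancel₀ (pow_ne_zero 4 h20.ne')
    rw [this, ← pow_add]
    congr 1
    omega
  set h := P.p * k - 4 with hh
  have hb : v (-(4 * (a₂ : Qbar) + 1)) = 1 := by
    rw [A.valuation.map_neg, A.valuation.map_add_eq_of_lt_right, map_one]
    rw [map_one, show (4 : Qbar) = 2 * 2 by norm_num]
    exact val_mul_lt_left A (val_mul_lt_left A h2v h2v.le) (val_intCast_le A _)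
  obtain ⟨t, ht, hte, htv⟩ := exists_small_root (A := A) (a := (12 : Qbar))
    (b := -(4 * (a₂ : Qbar) + 1)) (c := (a₄ : Qbar)) (val_ofNat_le A 12) hb
    (ha4v ▸ pow_lt_one₀ zero_le h2v (by omega))
  set r := -(2 * t) with hr
  have hr1 : v r ≤ 1 := val_neg_le A (val_mul_le A (val_ofNat_le A 2) ht.le)
  obtain ⟨s, s', hss, hsp⟩ := exists_quadratic_root (1 : Qbar) (-((a₂ : Qbar) + 3 * r))
  have hs : s ^ 2 + 1 * s + -((a₂ : Qbar) + 3 * r) = 0 := by linear_combination s * hss - hsp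
  have hs1 : v s ≤ 1 := val_le_of_quadratic (val_one_le A)
    (val_neg_le A (val_add_le A (val_intCast_le A _) (val_mul_le A (val_ofNat_le A 3) hr1))) hs
  have hu : v (1 + 2 * s) = 1 := by
    rw [A.valuation.map_add_eq_of_lt_left, map_one]
    rw [map_one]; exact val_mul_lt_left A h2v hs1
  have ec : r ^ 3 + (a₂ : Qbar) * r ^ 2 + (a₄ : Qbar) * r + 0 - t ^ 2 - 1 * r * t - 0 * t
      = t ^ 2 * (-(4 * (a₂ : Qbar) + 1) + 16 * t) := by
    rw [hr]; linear_combination (-2 * t) * hte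
  have hcv : v (r ^ 3 + (a₂ : Qbar) * r ^ 2 + (a₄ : Qbar) * r + 0 - t ^ 2 - 1 * r * t - 0 * t)
      = v (2 : Qbar) ^ (2 * h) := by
    rw [ec, map_mul, map_pow, htv, ha4v, A.valuation.map_add_eq_of_lt_left, hb, mul_one, ← pow_mul,
      mul_comm]
    rw [hb]; exact val_mul_lt_right A (val_ofNat_le A 16) ht
  refine ⟨⟨r, t, s, hr1, ht.le, hs1, ?_, ?_, ?_, ?_, ?_⟩, h, by omega, ?_, ?_, ?_⟩
  · simp only [dY, c₁, c₃, hr]; ring
  · simp only [dX, c₁, c₂, c₄, hr]; linear_combination -hte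
  · rw [c₁, c₂]; linear_combination hs
  · rw [c₁]; exact hu
  · rw [c₁, c₂, c₃, c₄, c₆, hcv]; exact pow_lt_one₀ zero_le h2v (by omega)
  · intro hdvd
    have h8 : P.p ∣ 8 := by
      have e : 2 * h + 8 = P.p * (2 * k) := by rw [Nat.mul_left_comm]; omega
      exact (Nat.dvd_add_right hdvd).1 (e ▸ dvd_mul_right _ _)
    have := (Nat.prime_dvd_prime_iff_eq P.pp Nat.prime_two).1
      (P.pp.dvd_of_dvd_pow (show P.p ∣ 2 ^ 3 from h8))
    omega
  · simp only [NodeData.c, c₁, c₂, c₃, c₄, c₆]; exact hcv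
  · change v r < _
    rw [hr, A.valuation.map_neg, map_mul, htv, ha4v]
    exact mul_lt_of_lt_one_left (pow_pos h20 _) h2v

theorem smul_nsmul_eq (σ : GalQ) (n : ℕ) (Q : (P.freyCurve⁄Qbar).Point) :
    σ • (n • Q) = n • (σ • Q) :=
  map_nsmul (DistribSMul.toAddMonoidHom (P.freyCurve⁄Qbar).Point σ) n Q

/-- A point killed by a prime `p` is not killed by a smaller positive number. -/
private theorem nsmul_ne_zero_of_prime {G : Type*} [AddMonoid G] {p : ℕ} (hp : p.Prime) {Q : G}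
    (hQ : Q ≠ 0) (hpQ : p • Q = 0) {j : ℕ} (hj : 0 < j) (hjp : j < p) : j • Q ≠ 0 := fun h0 =>
  hQ (AddMonoid.addOrderOf_eq_one_iff.1 (Nat.eq_one_of_dvd_coprimes
    (Nat.Coprime.symm (hp.coprime_iff_not_dvd.2 fun hd => by
      have := Nat.le_of_dvd hj hd; omega))
    (addOrderOf_dvd_iff_nsmul_eq_zero.2 h0) (addOrderOf_dvd_iff_nsmul_eq_zero.2 hpQ)))

/-- Multiples of a rational point are rational. -/
private theorem exists_rat_of_nsmul_eq {r s : ℚ}
    {hn : (FE P).toAffine.Nonsingular (r : Qbar) (s : Qbar)} {j : ℕ} {x y : Qbar}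
    {h' : (FE P).toAffine.Nonsingular x y}
    (e : j • (Point.some _ _ hn : (FE P).toAffine.Point) = Point.some x y h') :
    ∃ x' y' : ℚ, x = x' ∧ y = y' := by
  have hfix : ∀ σ : GalQ, σ • (Point.some _ _ hn : (FE P).toAffine.Point) = Point.some _ _ hn :=
    fun σ => by
      rw [smul_some]
      exact Point.some.injEq .. |>.mpr ⟨map_ratCast σ r, map_ratCast σ s⟩
  have : ∀ σ : GalQ, σ x = x ∧ σ y = y := fun σ => by
    have h1 : σ • (j • (Point.some _ _ hn : (FE P).toAffine.Point)) =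
        j • (Point.some _ _ hn : (FE P).toAffine.Point) := by rw [smul_nsmul_eq, hfix]
    rw [e, smul_some] at h1
    exact Point.some.injEq .. |>.mp h1
  obtain ⟨x', hx'⟩ := (InfiniteGalois.mem_range_algebraMap_iff_fixed x).2 fun σ => (this σ).1
  obtain ⟨y', hy'⟩ := (InfiniteGalois.mem_range_algebraMap_iff_fixed y).2 fun σ => (this σ).2
  exact ⟨x', y', by simpa using hx'.symm, by simpa using hy'.symm⟩

/-- A nonsingular integral rational point has `x` reducing to `1`, as the node lies over `0`. -/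
private theorem val_sub_one_lt_of_not_resSingular (hA : A.LiesOverPrime 2)
    (nd : NodeData A (FE P)) (hr : v nd.r < 1) {x y : ℚ}
    (h' : (FE P).toAffine.Nonsingular (x : Qbar) y) (hns : ¬ ResSingular A (FE P) (x : Qbar) y)
    (hx : v (x : Qbar) ≤ 1) : v ((x : Qbar) - 1) < 1 := by
  refine (val_rat_lt_or_sub_one_lt hA hx).resolve_left fun hx0 => hns ?_
  rw [nd.resSingular_iff intAt_frey h'.1]
  have hX : v (nd.X (x : Qbar)) < 1 := val_sub_lt A hx0 hr
  refine ⟨hX, ?_⟩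
  have he := congrArg v (nd.eq_XY h'.1)
  rw [map_mul] at he
  by_contra hY
  rw [not_lt] at hY
  have h1 : v (nd.Y (x : Qbar) y) ≤ v (nd.Y (x : Qbar) y + nd.u * nd.X x) := by
    rw [A.valuation.map_add_eq_of_lt_left]
    rw [nd.val_u_mul]; exact hX.trans_le hY
  have h2 : v (nd.X (x : Qbar) ^ 3 + nd.c) < 1 :=
    val_add_lt A (val_pow_lt A hX three_ne_zero) nd.val_c
  exact not_le.2 h2 (he ▸ one_le_mul hY (hY.trans h1))

/-- Numbers with the same residue, `0` or `1`, differ by a nonunit. -/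
private theorem val_sub_lt_of_residue {y y' : Qbar}
    (h : (v y < 1 ∧ v y' < 1) ∨ (v (y - 1) < 1 ∧ v (y' - 1) < 1)) : v (y - y') < 1 := by
  rcases h with ⟨h1, h2⟩ | ⟨h1, h2⟩
  · exact val_sub_lt A h1 h2
  · rw [show y - y' = (y - 1) - (y' - 1) by ring]; exact val_sub_lt A h1 h2

/-- Two different multiples below `p` of a `p`-torsion point do not have the same nonsingular
reduction. -/
private theorem false_of_residue_eq (hvp : v (P.p : Qbar) = 1) (hψ : PsiVanish (FE P) P.p)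
    {Q : (FE P).toAffine.Point} (hQ : Q ≠ 0) (hp : P.p • Q = 0) {i j : ℕ} {x y x' y' : Qbar}
    {n n'} (hij : i < j) (hjp : j < P.p) (ej : j • Q = Point.some x y n)
    (ei : i • Q = Point.some x' y' n') (hns : ¬ ResSingular A (FE P) x y) (hx : v x ≤ 1)
    (hy : v y ≤ 1) (hdx : v (x - 1) < 1) (hdx' : v (x' - 1) < 1) (hdy : v (y - y') < 1) :
    False := by
  have hxx : v (x - x') < 1 := by
    rw [show x - x' = (x - 1) - (x' - 1) by ring]; exact val_sub_lt A hdx hdx'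
  have hsub : (j - i) • Q = Point.some x y n - Point.some x' y' n' := by
    rw [← ej, ← ei, eq_sub_iff_add_eq, ← add_smul, Nat.sub_add_cancel hij.le]
  rcases one_lt_val_sub_of_residue_eq intAt_frey (h₁ := n) (h₂ := n') hns hx hy hxx hdy with
    h0 | ⟨x'', y'', n'', e'', hbig⟩
  · exact nsmul_ne_zero_of_prime P.pp hQ hp (by omega) (by omega) (hsub.trans h0)
  · refine not_lt.2 (val_x_le_of_torsion intAt_frey hvp P.hp_odd hψ (h := n'') ?_) hbig
    rw [← e'', ← hsub, smul_comm, hp, nsmul_zero]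

/-- A rational point of order `p` reduces to the node: its first three multiples would have
nonsingular reductions in a set with two elements. -/
private theorem not_inE0_of_torsion (hA : A.LiesOverPrime 2) (hψ : PsiVanish (FE P) P.p)
    (nd : NodeData A (FE P)) (hr : v nd.r < 1) (hvp : v (P.p : Qbar) = 1) {r s : ℚ}
    {hn : (FE P).toAffine.Nonsingular (r : Qbar) (s : Qbar)}
    (hp : P.p • (Point.some _ _ hn : (FE P).toAffine.Point) = 0) :
    ¬ InE0 A (FE P) (Point.some _ _ hn : (FE P).toAffine.Point) := by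
  intro hE
  have hW : IntAt A (FE P) := intAt_frey
  have hp5 := P.hp5
  set Q : (FE P).toAffine.Point := Point.some _ _ hn
  have hQ0 : Q ≠ 0 := Point.some_ne_zero hn
  have hres : ∀ j : ℕ, 0 < j → j < P.p → ∃ x y h', j • Q = Point.some x y h' ∧
      ¬ ResSingular A (FE P) x y ∧ v x ≤ 1 ∧ v y ≤ 1 ∧ v (x - 1) < 1 ∧
      (v y < 1 ∨ v (y - 1) < 1) := by
    intro j hj hjp
    obtain ⟨x, y, h', e⟩ : ∃ x y h', j • Q = Point.some x y h' := by
      rcases hP' : j • Q with _ | ⟨x, y, h'⟩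
      · exact absurd hP' (nsmul_ne_zero_of_prime P.pp hQ0 hp hj hjp)
      · exact ⟨x, y, h', rfl⟩
    have hns : ¬ ResSingular A (FE P) x y := by
      have : InE0 A (FE P) (j • Q) := nsmul_mem (S := E0 hW) (mem_E0.2 hE) j
      rwa [e, inE0_some] at this
    have hx : v x ≤ 1 := val_x_le_of_torsion hW hvp P.hp_odd hψ
      (show P.p • Point.some x y h' = 0 by rw [← e, smul_comm, hp, nsmul_zero])
    have hy : v y ≤ 1 := val_le_of_monic_quadratic hW hx ((equation_iff ..).1 h'.1)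
    obtain ⟨x', y', rfl, rfl⟩ := exists_rat_of_nsmul_eq e
    exact ⟨_, _, h', e, hns, hx, hy, val_sub_one_lt_of_not_resSingular hA nd hr h' hns hx,
      val_rat_lt_or_sub_one_lt hA hy⟩
  obtain ⟨x₁, y₁, n₁, e₁, r₁, hx₁, hy₁, hd₁, hc₁⟩ := hres 1 one_pos (by omega)
  obtain ⟨x₂, y₂, n₂, e₂, r₂, hx₂, hy₂, hd₂, hc₂⟩ := hres 2 two_pos (by omega)
  obtain ⟨x₃, y₃, n₃, e₃, r₃, hx₃, hy₃, hd₃, hc₃⟩ := hres 3 three_pos (by omega)
  have h21 := false_of_residue_eq hvp hψ hQ0 hp one_lt_two (by omega) e₂ e₁ r₂ hx₂ hy₂ hd₂ hd₁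
  have h32 := false_of_residue_eq hvp hψ hQ0 hp (i := 2) (j := 3) (by omega) (by omega)
    e₃ e₂ r₃ hx₃ hy₃ hd₃ hd₂
  have h31 := false_of_residue_eq hvp hψ hQ0 hp (i := 1) (j := 3) (by omega) (by omega)
    e₃ e₁ r₃ hx₃ hy₃ hd₃ hd₁
  rcases hc₁ with g1 | g1 <;> rcases hc₂ with g2 | g2 <;> rcases hc₃ with g3 | g3
  all_goals first
    | exact h21 (val_sub_lt_of_residue (.inl ⟨g2, g1⟩))
    | exact h21 (val_sub_lt_of_residue (.inr ⟨g2, g1⟩))
    | exact h32 (val_sub_lt_of_residue (.inl ⟨g3, g2⟩))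
    | exact h32 (val_sub_lt_of_residue (.inr ⟨g3, g2⟩))
    | exact h31 (val_sub_lt_of_residue (.inl ⟨g3, g1⟩))
    | exact h31 (val_sub_lt_of_residue (.inr ⟨g3, g1⟩))

/-- A point killed by `p` is in `E₀` if a multiple of it prime to `p` is. -/
private theorem inE0_of_coprime_nsmul (hW : IntAt A (FE P)) {Q : (FE P).toAffine.Point} {p m : ℕ}
    (hpQ : p • Q = 0) (hcop : m.Coprime p) (hm : InE0 A (FE P) (m • Q)) : InE0 A (FE P) Q := by
  obtain ⟨u, w, huw⟩ := Int.isCoprime_iff_gcd_eq_one.2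
    (show Int.gcd (m : ℤ) (p : ℤ) = 1 from hcop)
  have e : Q = u • ((m : ℤ) • Q) := by
    conv_lhs => rw [← one_zsmul Q, ← huw, add_zsmul, mul_zsmul, mul_zsmul,
      natCast_zsmul Q p, hpQ, zsmul_zero, add_zero]
  rw [natCast_zsmul] at e
  rw [e, ← mem_E0 (hW := hW)]
  exact zsmul_mem (mem_E0.2 hm) u

/-- A primitive cube root of unity reduces to neither `0` nor `1`. -/
private theorem exists_val_eq_one_sub_one (hA : A.LiesOverPrime 2) :
    ∃ ζ : Qbar, v ζ = 1 ∧ v (ζ - 1) = 1 := by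
  obtain ⟨ζ₁, ζ₂, hs', hp'⟩ := exists_quadratic_root (1 : Qbar) 1
  have hζe : ζ₁ ^ 2 + 1 * ζ₁ + 1 = 0 := by linear_combination ζ₁ * hs' - hp'
  have hζ : v ζ₁ = 1 := by
    refine le_antisymm (val_le_of_quadratic (val_one_le A) (val_one_le A) hζe) ?_
    by_contra hlt'
    rw [not_le] at hlt'
    have h1 : v (ζ₁ ^ 2 + 1 * ζ₁ + 1) = 1 := by
      rw [A.valuation.map_add_eq_of_lt_right, map_one]
      rw [map_one, one_mul]; exact val_add_lt A (val_pow_lt A hlt' two_ne_zero) hlt'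
    rw [hζe, A.valuation.map_zero] at h1
    exact zero_ne_one h1
  refine ⟨ζ₁, hζ, le_antisymm (val_sub_le A hζ.le (val_one_le A)) ?_⟩
  by_contra hlt'
  rw [not_le] at hlt'
  have h3 : v (3 : Qbar) < 1 := by
    rw [show (3 : Qbar) = -((ζ₁ - 1) * (ζ₁ + 2)) by linear_combination hζe]
    exact val_neg_lt A (val_mul_lt_left A hlt' (val_add_le A hζ.le (val_ofNat_le A 2)))
  exact h3.ne (by simpa using val_nat_eq_one Nat.prime_two hA (n := 3) (by omega))

/-- A rational point on a branch at the node is moved into `E₀` by twice the depth. -/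
private theorem two_mul_nsmul_inE0_of_plus (hA : A.LiesOverPrime 2) (nd : NodeData A (FE P))
    {h : ℕ} (hh : 1 ≤ h) (hc : v nd.c = v (2 : Qbar) ^ (2 * h))
    (hr : v nd.r < v (2 : Qbar) ^ h) {x' y' : ℚ}
    {n' : (FE P).toAffine.Nonsingular (x' : Qbar) (y' : Qbar)} {γ}
    (hγ : nd.Plus (Point.some _ _ n') γ) :
    InE0 A (FE P) ((2 * h) • (Point.some _ _ n' : (FE P).toAffine.Point)) := by
  have h20 : v (2 : Qbar) < 1 := by simpa using val_prime_lt hA
  have hlt := NodeData.Plus.pow_lt nd h20 hh hc hγ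
  obtain ⟨x'', y'', n'', e, hγ1, hX, hY⟩ := hγ
  obtain ⟨rfl, rfl⟩ := Point.some.injEq .. |>.mp e
  have hXx : v (nd.X (x' : Qbar)) = v (x' : Qbar) := by
    have hlt' : v nd.r < v (nd.X (x' : Qbar)) := hX ▸ hr.trans hlt
    conv_rhs => rw [show (x' : Qbar) = nd.X x' + nd.r by simp [NodeData.X],
      A.valuation.map_add_eq_of_lt_left hlt']
  have hx0 : x' ≠ 0 := by
    rintro rfl
    rw [hXx, Rat.cast_zero, A.valuation.map_zero] at hX
    exact (zero_le.trans_lt hY).ne hX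
  obtain ⟨e, he⟩ := exists_val_rat_eq_zpow Nat.prime_two hA hx0
  rw [Nat.cast_ofNat] at he
  have hpos : 0 < v (2 : Qbar) := A.valuation.pos_iff.2 two_ne_zero
  have hγe : γ = v (2 : Qbar) ^ e := by rw [← hX, hXx, he]
  have he0 : 0 < e := by
    by_contra hc'
    rw [hγe] at hγ1
    exact not_le.2 hγ1 (one_le_zpow_of_nonpos₀ hpos h20.le (not_lt.1 hc'))
  lift e to ℕ using he0.le with e'
  rw [zpow_natCast] at hγe
  have heh : e' < h := by
    rw [hγe] at hlt
    exact (pow_lt_pow_iff_right_of_lt_one₀ hpos h20).1 hlt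
  obtain ⟨ζ₁, hζ, hζ1⟩ := exists_val_eq_one_sub_one hA
  have hP' : nd.Plus (Point.some (x' : Qbar) y' n') (v (2 : Qbar) ^ e') :=
    hγe ▸ ⟨_, _, _, rfl, hγ1, hX, hY⟩
  exact NodeData.Plus.two_mul_smul_inE0 nd intAt_frey Δ_ne_zero two_ne_zero h20 hζ hζ1 hc
    (by omega) heh hP'

/-- A rational point of odd prime order `p` does not exist on the Frey curve at `2`. -/
theorem no_rational_torsion (hA : A.LiesOverPrime 2) (hψ : PsiVanish (FE P) P.p) {r s : ℚ}
    {hn : (FE P).toAffine.Nonsingular (r : Qbar) (s : Qbar)}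
    (hp : P.p • (Point.some _ _ hn : (FE P).toAffine.Point) = 0) : False := by
  obtain ⟨nd, h, hh, hph, hc, hr⟩ := node_two (P := P) hA
  have hW : IntAt A (FE P) := intAt_frey
  have hp5 := P.hp5
  have hvp : v (P.p : Qbar) = 1 := val_nat_eq_one Nat.prime_two hA fun h => by
    have := (Nat.prime_dvd_prime_iff_eq Nat.prime_two P.pp).1 h
    omega
  -- `Q` reduces to the node
  have hsing := not_inE0_of_torsion hA hψ nd
    (hr.trans_le (pow_le_one₀ zero_le (val_ofNat_le A 2))) hvp hp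
  -- a multiple of `Q` by a number prime to `p` has nonsingular reduction
  refine hsing (inE0_of_coprime_nsmul hW hp (P.pp.coprime_iff_not_dvd.2 hph).symm ?_)
  rcases nd.trichotomy hW hsing with ⟨γ, hγ⟩ | ⟨γ, hγ⟩ | hM
  · exact two_mul_nsmul_inE0_of_plus hA nd hh hc hr hγ
  · obtain ⟨a₂, h₂⟩ := exists_a₂ P
    obtain ⟨a₄, h₄⟩ := exists_a₄ P
    obtain ⟨c₁, c₂, c₃, c₄, c₆⟩ := coeffs_eq h₂ h₄
    have hneg : (FE P).toAffine.negY (r : Qbar) s = ((-s - r : ℚ) : Qbar) := by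
      rw [negY, c₁, c₃]; push_cast; ring
    have e : -(Point.some _ _ hn : (FE P).toAffine.Point) =
        Point.some _ _ (hneg ▸ (nonsingular_neg ..).2 hn) := by
      rw [Point.neg_some]; simp only [hneg]
    have hγ' : nd.Plus (-(Point.some _ _ hn : (FE P).toAffine.Point)) γ := hγ
    rw [e] at hγ'
    have := two_mul_nsmul_inE0_of_plus hA nd hh hc hr hγ'
    rw [← e, ← natCast_zsmul, zsmul_neg, natCast_zsmul] at this
    exact (inE0_neg_iff hW).1 this
  · have := hM.two_inE0 nd hW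
    rw [← two_smul ℕ] at this
    rw [mul_comm, mul_smul, ← mem_E0 (hW := hW)]
    exact nsmul_mem (mem_E0.2 this) h

end Frey

end FLTAgent.ECReduction
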