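import Fermat.Prelude.Def_FLTPrelim_CofixedLine
import Fermat.Agent.FreyUnramified.Frey
import Fermat.Agent.ECTorsion.Torsion
import Fermat.Agent.ECReduction.Torsion
import Fermat.Agent.ECReduction.GlobalInertia
import Fermat.Agent.ECReduction.Frey

/-!
# A stable line in the `p`-torsion of the Frey curve

If a line `N` in the `p`-torsion of the Frey curve is Galois stable, the action on the quotient by
`N` is trivial (`cofixed`): inertia at `p` kills one of the two characters, inertia elsewhere both,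
and `ℚ` has no unramified extension, while no point of order `p` is rational.  Used for S13, the
Galois image and the isogeny descent.
-/

set_option autoImplicit false

noncomputable section

open WeierstrassCurve WeierstrassCurve.Affine WeierstrassCurve.Affine.Point FLTAgent.Density
open scoped WeierstrassCurve.Affine Pointwise

namespace FLTAgent.ECReduction

variable (P : FreyPackage)

/-- The `p`-torsion of the Frey curve. -/
abbrev FT : Submodule ℤ (P.freyCurve⁄Qbar).Point :=
  Submodule.torsionBy ℤ (P.freyCurve⁄Qbar).Point P.p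

variable {P}

/-- The points of the Frey curve over `ℚbar`. -/
abbrev FPt (P : FreyPackage) := (P.freyCurve⁄Qbar).Point

theorem nsmul_coe (x : FT P) : P.p • (x : FPt P) = 0 := by
  rw [← natCast_zsmul]
  exact (Submodule.mem_torsionBy_iff _ _).mp x.2

theorem coe_smul (σ : GalQ) (x : FT P) : ((σ • x : FT P) : FPt P) = σ • (x : FPt P) := rfl

/-- The Frey curve over `ℚ̄` is elliptic. -/
instance frey_isElliptic : (P.freyCurve⁄Qbar).IsElliptic :=
  ⟨isUnit_iff_ne_zero.2 Δ_ne_zero⟩

theorem psiVanish : PsiVanish (FE P) P.p := fun _ _ h hP =>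
  (FLTAgent.ECTorsion.preΨ'_eval_eq_zero_iff h P.hp_odd).1 hP

/-- The `p`-torsion of the Frey curve has dimension two. -/
theorem finrank_eq_two [Fact P.p.Prime] : Module.finrank (ZMod P.p) (FT P) = 2 :=
  FLTAgent.ECTorsion.finrank_torsionBy P.freyCurve.toAffine (Nat.cast_ne_zero.2 P.hp0)

/-- A point fixed by the whole Galois group is rational, which is impossible at `2`. -/
theorem exists_smul_ne (x : FT P) (hx : x ≠ 0) : ∃ σ : GalQ, σ • x ≠ x := by
  by_contra hc
  push Not at hc
  have hp := nsmul_coe x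
  rcases hxe : (x : FPt P) with _ | ⟨a, b, h⟩
  · exact hx (Subtype.ext hxe)
  have hfix : ∀ σ : GalQ, σ a = a ∧ σ b = b := fun σ => by
    have h1 : σ • (x : FPt P) = x := by rw [← coe_smul, hc σ]
    rw [hxe, smul_some] at h1
    exact Point.some.injEq .. |>.mp h1
  obtain ⟨r, hr⟩ := (InfiniteGalois.mem_range_algebraMap_iff_fixed a).2 fun σ => (hfix σ).1
  obtain ⟨s, hs⟩ := (InfiniteGalois.mem_range_algebraMap_iff_fixed b).2 fun σ => (hfix σ).2
  obtain ⟨A, hA⟩ := exists_liesOverPrime Nat.prime_two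
  subst hr hs
  simp only [eq_ratCast] at h hxe
  exact no_rational_torsion hA psiVanish (hn := h) (by rw [← hxe]; exact hp)

section Line

variable {N : Submodule (ZMod P.p) (FT P)} (hst : IsGaloisStable ℚ N)

/-- The elements acting trivially on the line. -/
def epsKer (N : Submodule (ZMod P.p) (FT P)) : Subgroup GalQ where
  carrier := {σ | ∀ x ∈ N, σ • x = x}
  one_mem' := fun x _ => one_smul _ x
  mul_mem' := fun {a b} ha hb x hx => by rw [mul_smul, hb x hx, ha x hx]
  inv_mem' := fun {a} ha x hx => by rw [inv_smul_eq_iff, ha x hx]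

/-- The elements acting trivially on the quotient by the line. -/
def delKer (hst : IsGaloisStable ℚ N) : Subgroup GalQ where
  carrier := {σ | ∀ x, σ • x - x ∈ N}
  one_mem' := fun x => by simp
  mul_mem' := fun {a b} ha hb x => by
    rw [mul_smul, show a • b • x - x = (a • b • x - b • x) + (b • x - x) by abel]
    exact add_mem (ha _) (hb x)
  inv_mem' := fun {a} ha x => by
    have h := hst a⁻¹ _ (neg_mem (ha x))
    rwa [neg_sub, smul_sub, inv_smul_smul] at h

include hst in
theorem epsKer_normal : (epsKer N).Normal :=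
  ⟨fun a ha g x hx => by
    rw [mul_smul, mul_smul, ha _ (hst g⁻¹ x hx), smul_inv_smul]⟩

theorem delKer_normal : (delKer hst).Normal :=
  ⟨fun a ha g x => by
    have h := hst g _ (ha (g⁻¹ • x))
    rwa [smul_sub, smul_inv_smul, ← mul_smul, ← mul_smul] at h⟩

variable [Fact P.p.Prime] (hbot : N ≠ ⊥) (htop : N ≠ ⊤)

include hbot htop

theorem finrank_line : Module.finrank (ZMod P.p) N = 1 := by
  have := Module.finite_of_finrank_pos (show 0 < Module.finrank (ZMod P.p) (FT P) by
    rw [finrank_eq_two]; norm_num)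
  have h1 := Submodule.finrank_lt htop
  rw [finrank_eq_two] at h1
  have h0 : Module.finrank (ZMod P.p) N ≠ 0 := fun h => hbot (Submodule.finrank_eq_zero.1 h)
  omega

/-- A line is contained in any subgroup meeting it nontrivially. -/
theorem line_le_of_mem (M : Submodule (ZMod P.p) (FT P)) {y : FT P} (hy : y ∈ N) (hy0 : y ≠ 0)
    (hyM : y ∈ M) : N ≤ M := by
  have := Module.finite_of_finrank_pos (show 0 < Module.finrank (ZMod P.p) (FT P) by
    rw [finrank_eq_two]; norm_num)
  have hle : Submodule.span (ZMod P.p) {y} ≤ N :=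
    (Submodule.span_singleton_le_iff_mem _ _).2 hy
  rw [← Submodule.eq_of_le_of_finrank_eq hle
    (by rw [finrank_span_singleton hy0, finrank_line hbot htop])]
  exact (Submodule.span_singleton_le_iff_mem _ _).2 hyM

/-- A subgroup not contained in the line spans everything with it. -/
theorem line_sup_eq_top (M : Submodule (ZMod P.p) (FT P)) (hM : ¬ M ≤ N) : N ⊔ M = ⊤ := by
  have := Module.finite_of_finrank_pos (show 0 < Module.finrank (ZMod P.p) (FT P) by
    rw [finrank_eq_two]; norm_num)
  refine Submodule.eq_top_of_finrank_eq (le_antisymm (Submodule.finrank_le _) ?_)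
  have := Submodule.finrank_lt_finrank_of_lt (show N < N ⊔ M from
    lt_of_le_of_ne le_sup_left fun h => hM (le_sup_right.trans h.symm.le))
  rw [finrank_line hbot htop] at this
  rw [finrank_eq_two]
  omega

omit hbot htop

/-- The subgroup of torsion points with nonsingular reduction. -/
def torE0 (A : ValuationSubring Qbar) : Submodule (ZMod P.p) (FT P) :=
  AddSubgroup.toZModSubmodule P.p
    (AddSubgroup.comap (FT P).subtype.toAddMonoidHom (E0 (intAt_frey (A := A))))

theorem mem_torE0 {A : ValuationSubring Qbar} {x : FT P} :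
    x ∈ torE0 A ↔ InE0 A (FE P) (x : FPt P) :=
  ⟨fun h => h, fun h => h⟩

/-- The subgroup of torsion points reducing to the point at infinity. -/
def torE1 (A : ValuationSubring Qbar) : Submodule (ZMod P.p) (FT P) :=
  AddSubgroup.toZModSubmodule P.p
    (AddSubgroup.comap (FT P).subtype.toAddMonoidHom (E1 (intAt_frey (A := A))))

theorem mem_torE1 {A : ValuationSubring Qbar} {x : FT P} :
    x ∈ torE1 A ↔ InE1 A (FE P) (x : FPt P) :=
  ⟨fun h => h, fun h => h⟩

theorem torE1_le_torE0 (A : ValuationSubring Qbar) : torE1 (P := P) A ≤ torE0 A :=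
  fun _ h => mem_torE0.2 (InE1.inE0 (mem_torE1.1 h))

variable {A : ValuationSubring Qbar}

/-- Inertia moves a point of `E₀` inside `E₁`. -/
theorem smul_sub_mem_torE1 {σ : GalQ} (hσ : InertiaElt A σ) {x : FT P} (hx : x ∈ torE0 A) :
    σ • x - x ∈ torE1 A := by
  rw [mem_torE1, AddSubgroupClass.coe_sub, coe_smul]
  rw [mem_torE0] at hx
  rcases hxe : (x : FPt P) with _ | ⟨a, b, h⟩
  · exact trivial
  rw [hxe] at hx
  by_cases ha : A.valuation a ≤ 1
  · rcases smul_sub_of_inE0 (W₀ := P.freyCurve.toAffine) intAt_frey hσ (h := h) hx ha with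
      h0 | ⟨a', b', h', e, hbig⟩
    · rw [h0]; exact trivial
    · rw [e]; exact hbig
  · rw [not_le] at ha
    have h1 : InE1 A (FE P) (σ • (Point.some a b h : FPt P)) := by
      rw [smul_some, inE1_some, hσ.val_map]; exact ha
    rw [sub_eq_add_neg]
    exact InE1.add intAt_frey h1 (InE1.neg (inE1_some.2 ha))

theorem smul_sub_mem_torE0 {σ : GalQ} (hσ : InertiaElt A σ)
    (hred : (∀ x y : Qbar, (FE P).toAffine.Equation x y → ¬ ResSingular A (FE P) x y) ∨
      Nonempty (NodeData A (FE P))) (x : FT P) : σ • x - x ∈ torE0 A := by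
  rw [mem_torE0, AddSubgroupClass.coe_sub, coe_smul]
  rcases hred with hg | ⟨⟨nd⟩⟩
  · rcases hxe : σ • (x : FPt P) - x with _ | ⟨a, b, h⟩
    · exact trivial
    · exact hg a b h.1
  · exact smul_sub_inE0 (W₀ := P.freyCurve.toAffine) intAt_frey nd hσ P.hp_odd (nsmul_coe x)

include hbot htop hst

/-- Inertia at `2` acts trivially on the line and on the quotient. -/
theorem inertia_two (hA : A.LiesOverPrime 2) {σ : GalQ} (hσ : σ ∈ A.inertiaSubgroupIn ℚ) :
    σ ∈ epsKer N ∧ σ ∈ delKer hst := by
  have hi := inertiaElt_of_mem hσ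
  have hvp : A.valuation (P.p : Qbar) = 1 := val_nat_eq_one Nat.prime_two hA fun h => by
    have := (Nat.prime_dvd_prime_iff_eq Nat.prime_two P.pp).1 h
    have := P.hp5
    omega
  obtain ⟨nd, -⟩ := node_two (P := P) hA
  have hE1 : ∀ x : FT P, x ∈ torE1 A → x = 0 := by
    intro x hx
    rw [mem_torE1] at hx
    rcases hxe : (x : FPt P) with _ | ⟨a, b, h⟩
    · exact Subtype.ext hxe
    · rw [hxe, inE1_some] at hx
      refine absurd hx (not_lt.2
          (val_x_le_of_torsion intAt_frey hvp P.hp_odd psiVanish (h := h) ?_))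
      rw [← hxe]; exact nsmul_coe x
  have hfix : ∀ x ∈ torE0 (P := P) A, σ • x = x := fun x hx =>
    sub_eq_zero.1 (hE1 _ (smul_sub_mem_torE1 hi hx))
  have hE0 := smul_sub_mem_torE0 (P := P) hi (.inr ⟨nd⟩)
  have heps : σ ∈ epsKer N := by
    intro x hx
    by_contra hne
    exact hne (hfix x (line_le_of_mem hbot htop (torE0 A) (sub_mem (hst σ x hx) hx)
      (sub_ne_zero.2 hne) (hE0 x) hx))
  refine ⟨heps, ?_⟩
  intro x
  by_cases hle : torE0 A ≤ N
  · exact hle (hE0 x)
  obtain ⟨n, hn, m, hm, rfl⟩ :=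
    Submodule.mem_sup.1 ((line_sup_eq_top hbot htop _ hle).ge (Submodule.mem_top (x := x)))
  rw [smul_add, heps n hn, hfix m hm, sub_self]
  exact zero_mem N

/-- A point of `E₁` lies on the line if one nonzero point of the line does. -/
theorem mem_line_of_mem_torE1 (hA : A.LiesOverPrime P.p) {y : FT P} (hy : y ∈ N) (hy0 : y ≠ 0)
    (hy1 : y ∈ torE1 A) {x : FT P} (hx : x ∈ torE1 A) : x ∈ N := by
  classical
  rcases hxe : (x : FPt P) with _ | ⟨a, b, h⟩
  · rw [show x = 0 from Subtype.ext hxe]; exact zero_mem N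
  have hNE1 := line_le_of_mem hbot htop (torE1 A) hy hy0 hy1
  have := Module.finite_of_finrank_pos (show 0 < Module.finrank (ZMod P.p) (FT P) by
    rw [finrank_eq_two]; norm_num)
  have : Finite (FT P) := Module.finite_of_finite (ZMod P.p)
  have : Fintype (FT P) := Fintype.ofFinite _
  let xc : FT P → Qbar := fun z => match (z : FPt P) with
    | 0 => 0
    | .some u _ _ => u
  have hxc : ∀ (z : FT P) u w hh, (z : FPt P) = Point.some u w hh → xc z = u := by
    intro z u w hh e
    simp only [xc, e]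
  let T : Finset (FT P) := Finset.univ.filter fun z => z ∈ N ∧ z ≠ 0
  let S : Finset Qbar := T.image xc
  have hT : ∀ z ∈ T, ∃ u w hh, (z : FPt P) = Point.some u w hh ∧ 1 < A.valuation u ∧ xc z = u := by
    intro z hz
    obtain ⟨hzN, hz0⟩ := (Finset.mem_filter.1 hz).2
    rcases hze : (z : FPt P) with _ | ⟨u, w, hh⟩
    · exact absurd (Subtype.ext hze) hz0
    · have h1 := mem_torE1.1 (hNE1 hzN)
      rw [hze, inE1_some] at h1
      exact ⟨u, w, hh, rfl, h1, hxc z u w hh hze⟩
  have hS1 : ∀ u ∈ S, 1 < A.valuation u := by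
    intro u hu
    obtain ⟨z, hz, rfl⟩ := Finset.mem_image.1 hu
    obtain ⟨u, w, hh, -, h1, e⟩ := hT z hz
    rwa [e]
  have hSr : ∀ u ∈ S, ((FE P).preΨ' P.p).eval u = 0 := by
    intro u hu
    obtain ⟨z, hz, rfl⟩ := Finset.mem_image.1 hu
    obtain ⟨u, w, hh, ze, -, e⟩ := hT z hz
    rw [e]
    exact psiVanish u w hh (by rw [← ze]; exact nsmul_coe z)
  have hstab : ∀ σ : GalQ, S.image σ = S := by
    intro σ
    refine Finset.eq_of_subset_of_card_le ?_ (Finset.card_image_of_injective _ σ.injective).ge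
    intro u hu
    obtain ⟨u', hu', rfl⟩ := Finset.mem_image.1 hu
    obtain ⟨z, hz, rfl⟩ := Finset.mem_image.1 hu'
    obtain ⟨hzN, hz0⟩ := (Finset.mem_filter.1 hz).2
    obtain ⟨u, w, hh, ze, -, e⟩ := hT z hz
    refine Finset.mem_image.2 ⟨σ • z, Finset.mem_filter.2
      ⟨Finset.mem_univ _, hst σ z hzN, (smul_ne_zero_iff_ne σ).2 hz0⟩, ?_⟩
    rw [e]
    exact hxc _ _ _ _ (by rw [coe_smul, ze, smul_some])
  have hfix : ∀ σ : GalQ, σ (∏ u ∈ S, u) = ∏ u ∈ S, u := fun σ => by
    rw [map_prod]
    exact (Finset.prod_image (f := fun u => u) fun a _ b _ h => σ.injective h).symm.trans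
      (by rw [hstab σ])
  obtain ⟨r, hr⟩ := (InfiniteGalois.mem_range_algebraMap_iff_fixed _).2 hfix
  rw [eq_ratCast] at hr
  have hp0 : (P.p : Qbar) ≠ 0 := Nat.cast_ne_zero.2 P.hp0
  have hle := val_n_mul_prod_le (intAt_frey (P := P) (A := A)) hp0 P.hp_odd S hS1 hSr
  have hgt : 1 < ∏ u ∈ S, A.valuation u := by
    have hyT : y ∈ T := Finset.mem_filter.2 ⟨Finset.mem_univ _, hy, hy0⟩
    have hyS : xc y ∈ S := Finset.mem_image_of_mem xc hyT
    refine (hS1 _ hyS).trans_le ?_
    rw [← Finset.mul_prod_erase S _ hyS]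
    exact le_mul_of_one_le_right'
      (Finset.one_le_prod' fun u hu => (hS1 u (Finset.mem_of_mem_erase hu)).le)
  have hr0 : r ≠ 0 := by
    rintro rfl
    rw [← map_prod, ← hr, Rat.cast_zero, A.valuation.map_zero] at hgt
    exact not_lt.2 zero_le hgt
  obtain ⟨e, he⟩ := exists_val_rat_eq_zpow P.pp hA hr0
  have hw0 : 0 < A.valuation (P.p : Qbar) := A.valuation.pos_iff.2 hp0
  have hw1 := val_prime_lt hA
  rw [← map_prod, ← hr, he] at hgt hle
  have he1 : e = -1 := by
    have h1 : e < 0 := by
      by_contra hc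
      exact not_le.2 hgt
        ((zpow_le_zpow_right_of_le_one₀ hw0 hw1.le (not_lt.1 hc)).trans (zpow_zero _).le)
    have h2 : -1 ≤ e := by
      by_contra hc
      rw [← zpow_one_add₀ hw0.ne'] at hle
      refine not_lt.2 hle ?_
      have := zpow_lt_zpow_right_of_lt_one₀ hw0 hw1 (show 1 + e < 0 by omega)
      rwa [zpow_zero] at this
    omega
  have hsat : A.valuation (P.p : Qbar) * ∏ u ∈ S, A.valuation u = 1 := by
    rw [← map_prod, ← hr, he, he1, zpow_neg_one, mul_inv_cancel₀ hw0.ne']
  have hx1 := mem_torE1.1 hx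
  rw [hxe, inE1_some] at hx1
  obtain ⟨z, hz, hzu⟩ := Finset.mem_image.1 (mem_of_saturated intAt_frey hp0 P.hp_odd hS1 hSr hsat
    hx1 (psiVanish a b h (by rw [← hxe]; exact nsmul_coe x)))
  obtain ⟨u, w, hh, ze, -, e'⟩ := hT z hz
  obtain ⟨hzN, -⟩ := (Finset.mem_filter.1 hz).2
  rcases (Point.X_eq_iff (h₁ := h) (h₂ := hh)).1 (hzu.symm.trans e') with he' | he'
  · rw [show x = z from Subtype.ext (by rw [hxe, ze, he'])]; exact hzN
  · rw [show x = -z from Subtype.ext (by rw [NegMemClass.coe_neg, hxe, ze, he'])]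
    exact neg_mem hzN

/-- At a place above `p`, inertia is trivial on the line or on the quotient. -/
theorem inertia_p (hA : A.LiesOverPrime P.p) :
    (∀ σ ∈ A.inertiaSubgroupIn ℚ, σ ∈ epsKer N) ∨
      (∀ σ ∈ A.inertiaSubgroupIn ℚ, σ ∈ delKer hst) := by
  have hred := good_or_node (P := P) P.pp (by have := P.hp5; omega) hA
  by_cases hc : ∃ y ∈ N, y ≠ 0 ∧ y ∈ torE1 A
  · obtain ⟨y, hy, hy0, hy1⟩ := hc
    right
    intro σ hσ x
    have hi := inertiaElt_of_mem hσ
    have hline : ∀ z ∈ torE1 A, z ∈ N := fun z hz =>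
      mem_line_of_mem_torE1 hst hbot htop hA hy hy0 hy1 hz
    by_cases hx : x ∈ torE0 A
    · exact hline _ (smul_sub_mem_torE1 hi hx)
    by_cases hle : torE0 A ≤ N
    · exact hle (smul_sub_mem_torE0 hi hred x)
    refine absurd ?_ hx
    have hN0 : N ≤ torE0 A :=
      (line_le_of_mem hbot htop (torE1 A) hy hy0 hy1).trans (torE1_le_torE0 A)
    rw [← sup_eq_right.2 hN0, line_sup_eq_top hbot htop _ hle]
    exact Submodule.mem_top
  · push Not at hc
    left
    intro σ hσ x hx
    have hi := inertiaElt_of_mem hσ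
    by_contra hne
    have hd : σ • x - x ∈ N := sub_mem (hst σ x hx) hx
    by_cases hx0 : x ∈ torE0 A
    · exact hc _ hd (sub_ne_zero.2 hne) (smul_sub_mem_torE1 hi hx0)
    · exact hx0 (line_le_of_mem hbot htop (torE0 A) hd (sub_ne_zero.2 hne)
        (smul_sub_mem_torE0 hi hred x) hx)

omit hbot htop hst

/-- The Galois action on the torsion factors through a finite level. -/
theorem isOpen_of_trivial_le (H : Subgroup GalQ)
    (hH : ∀ σ : GalQ, (∀ x : FT P, σ • x = x) → σ ∈ H) :
    IsOpen (H : Set GalQ) := by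
  have := Module.finite_of_finrank_pos (show 0 < Module.finrank (ZMod P.p) (FT P) by
    rw [finrank_eq_two]; norm_num)
  have : Finite (FT P) := Module.finite_of_finite (ZMod P.p)
  let xy : FT P → Qbar × Qbar := fun z => match (z : FPt P) with
    | 0 => (0, 0)
    | .some u w _ => (u, w)
  let U : Subgroup GalQ :=
    ⨅ z : FT P, MulAction.stabilizer GalQ (xy z).1 ⊓ MulAction.stabilizer GalQ (xy z).2
  have hU : IsOpen (U : Set GalQ) := by
    rw [show (U : Set GalQ) = ⋂ z : FT P, ((MulAction.stabilizer GalQ (xy z).1 ⊓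
      MulAction.stabilizer GalQ (xy z).2 : Subgroup GalQ) : Set GalQ) from Subgroup.coe_iInf]
    exact isOpen_iInter_of_finite fun z => (stabilizer_isOpen_of_isIntegral _).inter
      (stabilizer_isOpen_of_isIntegral _)
  refine Subgroup.isOpen_mono (fun σ hσ => hH σ fun z => ?_) hU
  have hz := (Subgroup.mem_iInf.1 hσ) z
  apply Subtype.ext
  rw [coe_smul]
  rcases hze : (z : FPt P) with _ | ⟨u, w, hh⟩
  · rfl
  · rw [smul_some]
    simp only [xy, hze, Subgroup.mem_inf, MulAction.mem_stabilizer_iff, AlgEquiv.smul_def] at hz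
    exact Point.some.injEq .. |>.mpr hz

include hbot htop hst

/-- The action on the quotient by a stable line is trivial. -/
theorem cofixed (σ : GalQ) (x : FT P) : σ • x - x ∈ N := by
  obtain ⟨A, hA⟩ := exists_liesOverPrime P.pp
  have away : ∀ q : ℕ, q.Prime → q ≠ P.p → ∀ B : ValuationSubring Qbar, B.LiesOverPrime q →
      ∀ τ ∈ B.inertiaSubgroupIn ℚ, τ ∈ epsKer N ∧ τ ∈ delKer hst := by
    intro q hq hqp B hB τ hτ
    rcases eq_or_ne q 2 with rfl | hq2
    · exact inertia_two hst hbot htop hB hτ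
    · have h := FreyUnramified.freyCurve_galoisRepUnramifiedAt P hq hq2 hqp B hB τ hτ
      exact ⟨fun y _ => h y, fun y => by
        have e : τ • y = y := h y
        rw [e, sub_self]
        exact zero_mem N⟩
  have spread : ∀ H : Subgroup GalQ, H.Normal → (∀ τ ∈ A.inertiaSubgroupIn ℚ, τ ∈ H) →
      ∀ B : ValuationSubring Qbar, B.LiesOverPrime P.p → ∀ τ ∈ B.inertiaSubgroupIn ℚ, τ ∈ H := by
    intro H hn hH B hB τ hτ
    obtain ⟨g, rfl⟩ := exists_smul_eq_of_liesOverPrime P.pp hA hB
    have h1 := mem_inertiaSubgroupIn_smul hτ g⁻¹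
    rw [inv_smul_smul, inv_inv] at h1
    simpa [mul_assoc] using hn.conj_mem _ (hH _ h1) g
  rcases inertia_p hst hbot htop hA with h | h
  · exfalso
    have htriv : epsKer N = ⊤ := by
      refine eq_top_of_inertia_le _ (isOpen_of_trivial_le _ fun τ hτ y _ => hτ y) ?_
      intro q hq B hB τ hτ
      rcases eq_or_ne q P.p with rfl | hqp
      · exact spread _ (epsKer_normal hst) h B hB τ hτ
      · exact (away q hq hqp B hB τ hτ).1
    obtain ⟨y, hy, hy0⟩ := Submodule.exists_mem_ne_zero_of_ne_bot hbot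
    obtain ⟨τ, hτ⟩ := exists_smul_ne y hy0
    exact hτ ((show τ ∈ epsKer N by rw [htriv]; trivial) y hy)
  · have htriv : delKer hst = ⊤ := by
      refine eq_top_of_inertia_le _ (isOpen_of_trivial_le _ fun τ hτ y => by
        rw [hτ y, sub_self]; exact zero_mem N) ?_
      intro q hq B hB τ hτ
      rcases eq_or_ne q P.p with rfl | hqp
      · exact spread _ (delKer_normal hst) h B hB τ hτ
      · exact (away q hq hqp B hB τ hτ).2
    exact (show σ ∈ delKer hst by rw [htriv]; trivial) x

end Line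

/-- A reducible Frey representation has a stable line with trivial quotient action. -/
theorem hasCofixedLine_of_reducible (P : FreyPackage)
    (hred : ¬ GaloisRepIsIrreducible (K := AlgebraicClosure ℚ) ℚ P.freyCurve P.p) :
    HasGaloisStableCofixedLine (K := AlgebraicClosure ℚ) ℚ P.freyCurve P.p := by
  have : Fact P.p.Prime := ⟨P.pp⟩
  have : Nontrivial (Submodule.torsionBy ℤ (P.freyCurve⁄(AlgebraicClosure ℚ)).Point P.p) :=
    Module.nontrivial_of_finrank_pos (R := ZMod P.p)
      (by rw [finrank_eq_two]; norm_num)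
  rw [GaloisRepIsIrreducible, not_and] at hred
  have h := hred inferInstance
  push Not at h
  obtain ⟨N, hst, hbot, htop⟩ := h
  exact ⟨N, hst, hbot, htop, cofixed hst hbot htop⟩

end FLTAgent.ECReduction
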